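import Mathlib

/-!
# Simultaneous generalised eigenspaces of commuting families of operators
-/

set_option autoImplicit false

noncomputable section

namespace Fermat.Agent.H24H

open Module Set

section basic

variable {K M M' M'' I : Type*} [Field K] [AddCommGroup M] [Module K M]
  [AddCommGroup M'] [Module K M'] [AddCommGroup M''] [Module K M'']

/-- simultaneous generalised eigenspace -/
def gsp (T : I → Module.End K M) (χ : I → K) : Submodule K M :=
  ⨅ i, (T i).maxGenEigenspace (χ i)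

/-- the part belonging to a set of eigensystems -/
def gpart (T : I → Module.End K M) (Λ : Set (I → K)) : Submodule K M := ⨆ χ ∈ Λ, gsp T χ

lemma mem_gsp {T : I → Module.End K M} {χ : I → K} {x : M} :
    x ∈ gsp T χ ↔ ∀ i, ∃ n : ℕ, ((T i - χ i • (1 : Module.End K M)) ^ n) x = 0 := by
  simp [gsp, Submodule.mem_iInf, Module.End.mem_maxGenEigenspace]

lemma gsp_le_gpart (T : I → Module.End K M) {Λ : Set (I → K)} {χ : I → K} (h : χ ∈ Λ) :
    gsp T χ ≤ gpart T Λ := le_biSup (gsp T) h

lemma gpart_mono (T : I → Module.End K M) {Λ Λ' : Set (I → K)} (h : Λ ⊆ Λ') :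
    gpart T Λ ≤ gpart T Λ' := biSup_mono h

lemma gpart_le {T : I → Module.End K M} {Λ : Set (I → K)} {S : Submodule K M}
    (h : ∀ χ ∈ Λ, gsp T χ ≤ S) : gpart T Λ ≤ S := iSup₂_le h

@[simp] lemma gpart_singleton (T : I → Module.End K M) (χ : I → K) :
    gpart T {χ} = gsp T χ := by simp [gpart]

/-- equivariant maps and powers -/
lemma map_pow_sub (f : M →ₗ[K] M') {t : Module.End K M} {t' : Module.End K M'}
    (hf : ∀ x, f (t x) = t' (f x)) (c : K) (n : ℕ) (x : M) :
    f (((t - c • (1 : Module.End K M)) ^ n) x) =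
      ((t' - c • (1 : Module.End K M')) ^ n) (f x) := by
  induction n generalizing x with
  | zero => simp
  | succ n ih =>
    rw [pow_succ, pow_succ, Module.End.mul_apply, Module.End.mul_apply, ih]
    congr 1
    simp [hf]

lemma map_mem_gsp {T : I → Module.End K M} {T' : I → Module.End K M'} (f : M →ₗ[K] M')
    (hf : ∀ i x, f (T i x) = T' i (f x)) {χ : I → K} {x : M} (hx : x ∈ gsp T χ) :
    f x ∈ gsp T' χ := by
  rw [mem_gsp] at hx ⊢
  intro i
  obtain ⟨n, hn⟩ := hx i
  exact ⟨n, by rw [← map_pow_sub f (hf i), hn, map_zero]⟩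

lemma map_mem_gpart {T : I → Module.End K M} {T' : I → Module.End K M'} (f : M →ₗ[K] M')
    (hf : ∀ i x, f (T i x) = T' i (f x)) {Λ : Set (I → K)} {x : M} (hx : x ∈ gpart T Λ) :
    f x ∈ gpart T' Λ := by
  have h : gpart T Λ ≤ (gpart T' Λ).comap f := gpart_le fun χ hχ y hy =>
    gsp_le_gpart T' hχ (map_mem_gsp f hf hy)
  exact h hx

/-- stability -/
lemma stable_gpart {T : I → Module.End K M} (f : Module.End K M) (hf : ∀ i, Commute f (T i))
    {Λ : Set (I → K)} {x : M} (hx : x ∈ gpart T Λ) : f x ∈ gpart T Λ :=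
  map_mem_gpart f (fun i x => congrArg (fun F : Module.End K M => F x) (hf i).eq) hx

variable {T : I → Module.End K M} (hT : ∀ i j, Commute (T i) (T j))

include hT in
lemma iSupIndep_gsp : iSupIndep (gsp T) :=
  Module.End.independent_iInf_maxGenEigenspace_of_forall_mapsTo T
    (fun i j _ => Module.End.mapsTo_maxGenEigenspace_of_comm (hT j i) _)

include hT in
lemma disjoint_gpart {Λ Λ' : Set (I → K)} (h : Disjoint Λ Λ') :
    Disjoint (gpart T Λ) (gpart T Λ') := (iSupIndep_gsp hT).disjoint_biSup_biSup h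

include hT in
lemma iSup_gsp [IsAlgClosed K] [FiniteDimensional K M] : ⨆ χ, gsp T χ = ⊤ := by
  refine Module.End.iSup_iInf_maxGenEigenspace_eq_top_of_iSup_maxGenEigenspace_eq_top_of_commute T
    (fun i j _ => hT i j) fun i => Module.End.iSup_maxGenEigenspace_eq_top (T i)

include hT in
theorem isCompl_gpart [IsAlgClosed K] [FiniteDimensional K M] (Λ : Set (I → K)) :
    IsCompl (gpart T Λ) (gpart T Λᶜ) := by
  refine ⟨disjoint_gpart hT disjoint_compl_right, codisjoint_iff.mpr ?_⟩
  rw [eq_top_iff, ← iSup_gsp hT]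
  refine iSup_le fun χ => ?_
  by_cases h : χ ∈ Λ
  · exact (gsp_le_gpart T h).trans le_sup_left
  · exact (gsp_le_gpart T (show χ ∈ Λᶜ from h)).trans le_sup_right

include hT in
/-- only finitely many eigensystems occur -/
lemma finite_gsp [FiniteDimensional K M] : {χ | gsp T χ ≠ ⊥}.Finite :=
  WellFoundedGT.finite_ne_bot_of_iSupIndep (iSupIndep_gsp hT)

include hT in
/-- membership in `gpart` only involves finitely many systems -/
lemma gpart_eq_finite [FiniteDimensional K M] (Λ : Set (I → K)) :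
    ∃ s : Finset (I → K), (∀ χ ∈ s, χ ∈ Λ ∧ gsp T χ ≠ ⊥) ∧ gpart T Λ = ⨆ χ ∈ s, gsp T χ := by
  classical
  refine ⟨((finite_gsp hT).subset (inter_subset_right (s := Λ))).toFinset, ?_, ?_⟩
  · intro χ hχ
    rw [Set.Finite.mem_toFinset] at hχ
    exact hχ
  · apply le_antisymm
    · refine gpart_le fun χ hχ => ?_
      by_cases h : gsp T χ = ⊥
      · rw [h]; exact bot_le
      · exact le_iSup₂_of_le χ ((Set.Finite.mem_toFinset _).mpr ⟨hχ, h⟩) le_rfl
    · refine iSup₂_le fun χ hχ => ?_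
      rw [Set.Finite.mem_toFinset] at hχ
      exact gsp_le_gpart T hχ.1

/-- the part is insensitive to empty systems -/
lemma gpart_congr {Λ Λ' : Set (I → K)} (h : ∀ χ, gsp T χ ≠ ⊥ → (χ ∈ Λ ↔ χ ∈ Λ')) :
    gpart T Λ = gpart T Λ' := by
  apply le_antisymm
  · refine gpart_le fun χ hχ => ?_
    by_cases h0 : gsp T χ = ⊥
    · rw [h0]; exact bot_le
    · exact gsp_le_gpart T ((h χ h0).mp hχ)
  · refine gpart_le fun χ hχ => ?_
    by_cases h0 : gsp T χ = ⊥
    · rw [h0]; exact bot_le
    · exact gsp_le_gpart T ((h χ h0).mpr hχ)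

end basic

section exact

variable {K M M' M'' I : Type*} [Field K] [IsAlgClosed K] [AddCommGroup M] [Module K M]
  [AddCommGroup M'] [Module K M'] [AddCommGroup M''] [Module K M'']
  [FiniteDimensional K M] [FiniteDimensional K M'] [FiniteDimensional K M'']
  {T : I → Module.End K M} {T' : I → Module.End K M'} {T'' : I → Module.End K M''}

omit [FiniteDimensional K M'] in
/-- image of the part -/
theorem map_gpart (hT : ∀ i j, Commute (T i) (T j)) (hT' : ∀ i j, Commute (T' i) (T' j))
    (f : M →ₗ[K] M') (hf : ∀ i x, f (T i x) = T' i (f x)) (Λ : Set (I → K)) :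
    (gpart T Λ).map f = LinearMap.range f ⊓ gpart T' Λ := by
  apply le_antisymm
  · rintro _ ⟨x, hx, rfl⟩
    exact ⟨⟨x, rfl⟩, map_mem_gpart f hf hx⟩
  · rintro _ ⟨⟨x, rfl⟩, hx⟩
    have htop := (isCompl_gpart hT Λ).sup_eq_top
    have hx' : x ∈ gpart T Λ ⊔ gpart T Λᶜ := by rw [htop]; trivial
    obtain ⟨y, hy, z, hz, rfl⟩ := Submodule.mem_sup.mp hx'
    refine ⟨y, hy, ?_⟩
    have h1 : f z ∈ gpart T' Λᶜ := map_mem_gpart f hf hz
    have h2 : f z ∈ gpart T' Λ := by
      have h3 : f z = f (y + z) - f y := by rw [map_add]; abel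
      rw [h3]
      exact Submodule.sub_mem _ hx (map_mem_gpart f hf hy)
    have h4 : f z = 0 := by
      have := (disjoint_gpart hT' (disjoint_compl_right (a := Λ))).eq_bot
      rw [← Submodule.mem_bot K, ← this]
      exact ⟨h2, h1⟩
    rw [map_add, h4, add_zero]

omit [IsAlgClosed K] [FiniteDimensional K M] in
/-- `T i₀` is injective on the part if the eigenvalues are non-zero -/
lemma eq_zero_of_gpart (i₀ : I) {Λ : Set (I → K)} (hΛ : ∀ χ ∈ Λ, χ i₀ ≠ 0) {x : M}
    (hx : x ∈ gpart T Λ) (h0 : T i₀ x = 0) : x = 0 := by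
  have h1 : gpart T Λ ≤ ⨆ μ ∈ ({0}ᶜ : Set K), (T i₀).maxGenEigenspace μ := by
    refine gpart_le fun χ hχ => ?_
    exact (iInf_le _ i₀).trans (le_biSup (fun μ => (T i₀).maxGenEigenspace μ)
      (show χ i₀ ∈ ({0}ᶜ : Set K) from hΛ χ hχ))
  have h2 : x ∈ ⨆ μ ∈ ({0} : Set K), (T i₀).maxGenEigenspace μ := by
    have h3 : (⨆ μ ∈ ({0} : Set K), (T i₀).maxGenEigenspace μ) = (T i₀).maxGenEigenspace 0 := by
      simp
    rw [h3, Module.End.mem_maxGenEigenspace]
    exact ⟨1, by simp [h0]⟩
  have hd := ((T i₀).independent_maxGenEigenspace).disjoint_biSup_biSup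
    (s := ({0} : Set K)) (t := {0}ᶜ) disjoint_compl_right
  have := hd.eq_bot
  rw [← Submodule.mem_bot K, ← this]
  exact ⟨h2, h1 hx⟩

omit [IsAlgClosed K] [FiniteDimensional K M] in
/-- power version -/
lemma eq_zero_of_gpart_pow (i₀ : I) {Λ : Set (I → K)} (hΛ : ∀ χ ∈ Λ, χ i₀ ≠ 0) {x : M}
    (hx : x ∈ gpart T Λ) {n : ℕ} (h0 : ((T i₀) ^ n) x = 0) : x = 0 := by
  have h1 : gpart T Λ ≤ ⨆ μ ∈ ({0}ᶜ : Set K), (T i₀).maxGenEigenspace μ := by
    refine gpart_le fun χ hχ => ?_
    exact (iInf_le _ i₀).trans (le_biSup (fun μ => (T i₀).maxGenEigenspace μ)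
      (show χ i₀ ∈ ({0}ᶜ : Set K) from hΛ χ hχ))
  have h2 : x ∈ ⨆ μ ∈ ({0} : Set K), (T i₀).maxGenEigenspace μ := by
    have h3 : (⨆ μ ∈ ({0} : Set K), (T i₀).maxGenEigenspace μ) = (T i₀).maxGenEigenspace 0 := by
      simp
    rw [h3, Module.End.mem_maxGenEigenspace]
    exact ⟨n, by simp [h0]⟩
  have hd := ((T i₀).independent_maxGenEigenspace).disjoint_biSup_biSup
    (s := ({0} : Set K)) (t := {0}ᶜ) disjoint_compl_right
  have := hd.eq_bot
  rw [← Submodule.mem_bot K, ← this]
  exact ⟨h2, h1 hx⟩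

omit [FiniteDimensional K M''] in
/-- **Additivity** of the part in sequences `M' → M → M'' → 0` which are exact up to a kernel
killed by a power of some `T i₀`. -/
theorem finrank_gpart_exact (hT : ∀ i j, Commute (T i) (T j))
    (hT' : ∀ i j, Commute (T' i) (T' j)) (hT'' : ∀ i j, Commute (T'' i) (T'' j))
    (f : M' →ₗ[K] M) (g : M →ₗ[K] M'')
    (hf : ∀ i x, f (T' i x) = T i (f x)) (hg : ∀ i x, g (T i x) = T'' i (g x))
    (hsurj : Function.Surjective g) (hexact : LinearMap.range f = LinearMap.ker g)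
    (Λ : Set (I → K)) (hker : ∀ x, x ∈ gpart T' Λ → f x = 0 → x = 0) :
    finrank K (gpart T Λ) = finrank K (gpart T' Λ) + finrank K (gpart T'' Λ) := by
  -- restrict `g`
  let g' : gpart T Λ →ₗ[K] M'' := g ∘ₗ (gpart T Λ).subtype
  have hrange : LinearMap.range g' = gpart T'' Λ := by
    rw [LinearMap.range_comp, Submodule.range_subtype, map_gpart hT hT'' g hg,
      LinearMap.range_eq_top.mpr hsurj, top_inf_eq]
  have h1 := LinearMap.finrank_range_add_finrank_ker g'
  rw [hrange] at h1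
  -- the kernel
  let f' : gpart T' Λ →ₗ[K] M := f ∘ₗ (gpart T' Λ).subtype
  have hinj : Function.Injective f' := by
    rw [injective_iff_map_eq_zero]
    rintro ⟨x, hx⟩ h
    exact Subtype.ext (hker x hx h)
  have h2 : finrank K (LinearMap.range f') = finrank K (gpart T' Λ) :=
    LinearMap.finrank_range_of_inj hinj
  have h3 : (LinearMap.ker g').map (gpart T Λ).subtype = LinearMap.range f' := by
    rw [LinearMap.range_comp, Submodule.range_subtype, map_gpart hT' hT f hf, hexact]
    ext x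
    constructor
    · rintro ⟨y, hy, rfl⟩
      exact ⟨hy, y.2⟩
    · rintro ⟨hx1, hx2⟩
      exact ⟨⟨x, hx2⟩, hx1, rfl⟩
  have h4 : finrank K (LinearMap.ker g') = finrank K (LinearMap.range f') := by
    rw [← h3]
    exact (LinearEquiv.finrank_eq (Submodule.equivMapOfInjective _
      (Submodule.injective_subtype _) _))
  rw [← h1, h4, h2, add_comm]

omit [FiniteDimensional K M''] in
/-- version with an invertible `T i₀` -/
theorem finrank_gpart_exact' (hT : ∀ i j, Commute (T i) (T j))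
    (hT' : ∀ i j, Commute (T' i) (T' j)) (hT'' : ∀ i j, Commute (T'' i) (T'' j))
    (f : M' →ₗ[K] M) (g : M →ₗ[K] M'')
    (hf : ∀ i x, f (T' i x) = T i (f x)) (hg : ∀ i x, g (T i x) = T'' i (g x))
    (hsurj : Function.Surjective g) (hexact : LinearMap.range f = LinearMap.ker g)
    (Λ : Set (I → K)) (i₀ : I) (hΛ : ∀ χ ∈ Λ, χ i₀ ≠ 0) (h0 : ∀ x, f x = 0 → T' i₀ x = 0) :
    finrank K (gpart T Λ) = finrank K (gpart T' Λ) + finrank K (gpart T'' Λ) :=
  finrank_gpart_exact hT hT' hT'' f g hf hg hsurj hexact Λ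
    (fun _ hx h => eq_zero_of_gpart i₀ hΛ hx (h0 _ h))

omit [IsAlgClosed K] [FiniteDimensional K M] in
/-- monotonicity under injective maps -/
theorem finrank_gpart_le_of_injective (f : M →ₗ[K] M') (hf : ∀ i x, f (T i x) = T' i (f x))
    (hinj : Function.Injective f) (Λ : Set (I → K)) :
    finrank K (gpart T Λ) ≤ finrank K (gpart T' Λ) := by
  let f' : gpart T Λ →ₗ[K] gpart T' Λ :=
    f.restrict (fun x hx => map_mem_gpart f hf hx)
  refine LinearMap.finrank_le_finrank_of_injective (f := f') ?_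
  intro x y h
  apply Subtype.ext
  exact hinj (congrArg Subtype.val h)

omit [IsAlgClosed K] in
/-- invariance under isomorphisms -/
theorem finrank_gpart_equiv (e : M ≃ₗ[K] M') (he : ∀ i x, e (T i x) = T' i (e x))
    (Λ : Set (I → K)) : finrank K (gpart T Λ) = finrank K (gpart T' Λ) := by
  apply le_antisymm
  · exact finrank_gpart_le_of_injective e.toLinearMap he e.injective Λ
  · refine finrank_gpart_le_of_injective e.symm.toLinearMap (fun i x => ?_) e.symm.injective Λ
    show e.symm (T' i x) = T i (e.symm x)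
    rw [LinearEquiv.symm_apply_eq, he, LinearEquiv.apply_symm_apply]

/-- the part of a product -/
theorem finrank_gpart_prod (hT : ∀ i j, Commute (T i) (T j))
    (hT' : ∀ i j, Commute (T' i) (T' j)) (Λ : Set (I → K)) :
    finrank K (gpart (fun i => (T i).prodMap (T' i) : I → Module.End K (M × M')) Λ) =
      finrank K (gpart T Λ) + finrank K (gpart T' Λ) := by
  refine finrank_gpart_exact (T := (fun i => (T i).prodMap (T' i) : I → Module.End K (M × M')))
    (fun i j => ?_) hT hT' (LinearMap.inl K M M') (LinearMap.snd K M M')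
    (fun i x => by simp) (fun i x => by simp) (fun y => ⟨(0, y), rfl⟩) ?_ Λ ?_
  · show _ * _ = _ * _
    ext x
    · exact congrArg (fun F : Module.End K M => F x) (hT i j).eq
    · simp
    · simp
    · exact congrArg (fun F : Module.End K M' => F x) (hT' i j).eq
  · ext ⟨x, y⟩
    simp [Prod.ext_iff, eq_comm]
  · intro x _ hx
    simpa using hx

end exact

end Fermat.Agent.H24H
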