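import Mathlib
import Fermat.Agent.H24H.Gpart

/-!
# Reduction of lattices modulo a valuation ring and simultaneous generalised eigenspaces
-/

set_option autoImplicit false

noncomputable section

namespace Fermat.Agent.H24H

open Module Set

variable {K : Type*} [Field K] (A : ValuationSubring K)

/-- scaling a non-zero vector to a primitive one -/
lemma exists_scale {ι : Type*} [Finite ι] {c : ι → K} (hc : c ≠ 0) :
    ∃ d : K, d ≠ 0 ∧ (∀ j, d * c j ∈ A) ∧ ∃ j, d * c j = 1 := by
  have hne : Nonempty ι := by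
    by_contra h
    rw [not_nonempty_iff] at h
    exact hc (funext fun j => h.elim j)
  obtain ⟨j, hj⟩ := Finite.exists_max (fun j => A.valuation (c j))
  have hcj : c j ≠ 0 := by
    intro h0
    apply hc
    funext i
    have := hj i
    rw [h0, map_zero, le_zero_iff] at this
    exact (A.valuation.zero_iff).mp this
  refine ⟨(c j)⁻¹, inv_ne_zero hcj, fun i => ?_, j, inv_mul_cancel₀ hcj⟩
  rw [← A.valuation_le_one_iff, map_mul, map_inv₀]
  have hv : A.valuation (c j) ≠ 0 := (A.valuation.ne_zero_iff).mpr hcj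
  calc (A.valuation (c j))⁻¹ * A.valuation (c i) ≤ (A.valuation (c j))⁻¹ * A.valuation (c j) :=
        mul_le_mul_right (hj i) _
    _ = 1 := inv_mul_cancel₀ hv

variable {A}

lemma one_notMem_nonunits : (1 : K) ∉ A.nonunits := by
  rw [A.mem_nonunits_iff, map_one]
  exact lt_irrefl 1

lemma mem_of_nonunits {c : K} (h : c ∈ A.nonunits) : c ∈ A := by
  rw [A.mem_nonunits_iff] at h
  rw [← A.valuation_le_one_iff]
  exact h.le

lemma inv_mem_nonunits {c : K} (h : c ∉ A) : c⁻¹ ∈ A.nonunits := by
  rw [A.mem_nonunits_iff, map_inv₀]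
  rw [← A.valuation_le_one_iff, not_le] at h
  exact inv_lt_one_of_one_lt₀ h

lemma residue_eq_iff {c c' : K} (h : c ∈ A) (h' : c' ∈ A) :
    IsLocalRing.residue A ⟨c, h⟩ = IsLocalRing.residue A ⟨c', h'⟩ ↔ c - c' ∈ A.nonunits := by
  rw [← sub_eq_zero, ← map_sub, IsLocalRing.residue_eq_zero_iff, A.valuation_lt_one_iff,
    A.mem_nonunits_iff]
  rfl

lemma residue_eq_zero_iff' {c : K} (h : c ∈ A) :
    IsLocalRing.residue A ⟨c, h⟩ = 0 ↔ c ∈ A.nonunits := by
  rw [IsLocalRing.residue_eq_zero_iff, A.valuation_lt_one_iff, A.mem_nonunits_iff]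

lemma inv_mem_of_notMem_nonunits {c : K} (h' : c ∉ A.nonunits) : c⁻¹ ∈ A := by
  rw [A.mem_nonunits_iff, not_lt] at h'
  rw [← A.valuation_le_one_iff, map_inv₀]
  exact inv_le_one_of_one_le₀ h'

variable {I : Type*}

variable (A) in
/-- the systems of eigenvalues reducing to `a` -/
def LamA (a : I → IsLocalRing.ResidueField A) : Set (I → K) :=
  {χ | ∀ i, ∃ h : χ i ∈ A, IsLocalRing.residue A ⟨χ i, h⟩ = a i}

variable {X : Type*} [AddCommGroup X] [Module K X] {T : I → Module.End K X}

variable (A T) in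
/-- A lattice `L` stable under operators with a stable sub-lattice `L0` containing `𝔪 L`. -/
structure Lat where
  /-- the lattice -/
  L : AddSubgroup X
  /-- the sublattice -/
  L0 : AddSubgroup X
  smul_mem : ∀ {c : K} {x : X}, c ∈ A → x ∈ L → c • x ∈ L
  T_mem : ∀ (i : I) {x : X}, x ∈ L → T i x ∈ L
  smul_mem0 : ∀ {c : K} {x : X}, c ∈ A → x ∈ L0 → c • x ∈ L0
  T_mem0 : ∀ (i : I) {x : X}, x ∈ L0 → T i x ∈ L0
  nonunit_smul : ∀ {c : K} {x : X}, c ∈ A.nonunits → x ∈ L → c • x ∈ L0

namespace Lat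

variable (D : Lat A T)

/-- the part belonging to `a`, modulo `L0` -/
def part (a : I → IsLocalRing.ResidueField A) (x : X) : Prop :=
  ∀ i, ∀ (c : K) (hc : c ∈ A), IsLocalRing.residue A ⟨c, hc⟩ = a i →
    ∃ n : ℕ, ((T i - c • (1 : Module.End K X)) ^ n) x ∈ D.L0

lemma sub_mem (i : I) {c : K} (hc : c ∈ A) {x : X} (hx : x ∈ D.L) :
    (T i - c • (1 : Module.End K X)) x ∈ D.L := by
  simp only [LinearMap.sub_apply, LinearMap.smul_apply, Module.End.one_apply]
  exact D.L.sub_mem (D.T_mem i hx) (D.smul_mem hc hx)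

lemma sub_mem0 (i : I) {c : K} (hc : c ∈ A) {x : X} (hx : x ∈ D.L0) :
    (T i - c • (1 : Module.End K X)) x ∈ D.L0 := by
  simp only [LinearMap.sub_apply, LinearMap.smul_apply, Module.End.one_apply]
  exact D.L0.sub_mem (D.T_mem0 i hx) (D.smul_mem0 hc hx)

lemma pow_sub_mem (i : I) {c : K} (hc : c ∈ A) {x : X} (hx : x ∈ D.L) (n : ℕ) :
    ((T i - c • (1 : Module.End K X)) ^ n) x ∈ D.L := by
  induction n with
  | zero => simpa using hx
  | succ n ih =>
    rw [pow_succ', Module.End.mul_apply]
    exact D.sub_mem i hc ih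

lemma pow_sub_mem0 (i : I) {c : K} (hc : c ∈ A) {x : X} (hx : x ∈ D.L0) (n : ℕ) :
    ((T i - c • (1 : Module.End K X)) ^ n) x ∈ D.L0 := by
  induction n with
  | zero => simpa using hx
  | succ n ih =>
    rw [pow_succ', Module.End.mul_apply]
    exact D.sub_mem0 i hc ih

/-- independence of the lift -/
lemma pow_sub_congr (i : I) {c c' : K} (hc : c ∈ A) (hc' : c' ∈ A) (hcc : c - c' ∈ A.nonunits)
    {x : X} (hx : x ∈ D.L) (n : ℕ) :
    ((T i - c' • (1 : Module.End K X)) ^ n) x - ((T i - c • (1 : Module.End K X)) ^ n) x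
      ∈ D.L0 := by
  induction n with
  | zero => simp
  | succ n ih =>
    rw [pow_succ', Module.End.mul_apply, pow_succ', Module.End.mul_apply]
    have h1 := D.sub_mem0 i hc' ih
    have h2 := D.nonunit_smul hcc (D.pow_sub_mem i hc hx n)
    have h3 := D.L0.add_mem h1 h2
    convert h3 using 1
    simp only [LinearMap.sub_apply, LinearMap.smul_apply, Module.End.one_apply, map_sub,
      sub_smul]
    abel

lemma part_of_exists {a : I → IsLocalRing.ResidueField A} {x : X} (hx : x ∈ D.L)
    (h : ∀ i, ∃ (c : K) (hc : c ∈ A), IsLocalRing.residue A ⟨c, hc⟩ = a i ∧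
      ∃ n : ℕ, ((T i - c • (1 : Module.End K X)) ^ n) x ∈ D.L0) : D.part a x := by
  intro i c hc hca
  obtain ⟨c', hc', hca', n, hn⟩ := h i
  refine ⟨n, ?_⟩
  have h1 := D.pow_sub_congr i hc' hc (by rw [← residue_eq_iff hc' hc, hca', hca]) hx n
  have := D.L0.add_mem h1 hn
  rwa [sub_add_cancel] at this

lemma part_add {a : I → IsLocalRing.ResidueField A} {x y : X} (hx : D.part a x)
    (hy : D.part a y) : D.part a (x + y) := by
  intro i c hc hca
  obtain ⟨n, hn⟩ := hx i c hc hca
  obtain ⟨m, hm⟩ := hy i c hc hca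
  refine ⟨m + n, ?_⟩
  rw [map_add]
  refine D.L0.add_mem ?_ ?_
  · rw [pow_add, Module.End.mul_apply]
    exact D.pow_sub_mem0 i hc hn m
  · rw [add_comm m n, pow_add, Module.End.mul_apply]
    exact D.pow_sub_mem0 i hc hm n

lemma part_zero (a : I → IsLocalRing.ResidueField A) : D.part a 0 := by
  intro i c hc hca
  exact ⟨0, by simp [D.L0.zero_mem]⟩

lemma part_smul {a : I → IsLocalRing.ResidueField A} {x : X} (hx : D.part a x) {d : K}
    (hd : d ∈ A) : D.part a (d • x) := by
  intro i c hc hca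
  obtain ⟨n, hn⟩ := hx i c hc hca
  exact ⟨n, by rw [map_smul]; exact D.smul_mem0 hd hn⟩

lemma part_sum {a : I → IsLocalRing.ResidueField A} {ι : Type*} (s : Finset ι) (x : ι → X)
    (h : ∀ j ∈ s, D.part a (x j)) : D.part a (∑ j ∈ s, x j) := by
  classical
  induction s using Finset.induction_on with
  | empty => simpa using D.part_zero a
  | insert j s hj ih =>
    rw [Finset.sum_insert hj]
    exact D.part_add (h j (Finset.mem_insert_self j s))
      (ih fun i hi => h i (Finset.mem_insert_of_mem hi))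

lemma part_of_mem0 {a : I → IsLocalRing.ResidueField A} {x : X} (hx : x ∈ D.L0) :
    D.part a x := fun i c hc hca => ⟨0, by simpa using hx⟩

end Lat

/-- the algebra generated by the operators is commutative -/
lemma commute_adjoin (hT : ∀ i j, Commute (T i) (T j)) {P Q : Module.End K X}
    (hP : P ∈ Algebra.adjoin K (Set.range T)) (hQ : Q ∈ Algebra.adjoin K (Set.range T)) :
    Commute P Q := by
  refine Algebra.commute_of_mem_adjoin_of_forall_mem_commute hQ ?_
  rintro _ ⟨j, rfl⟩
  refine (Algebra.commute_of_mem_adjoin_of_forall_mem_commute hP ?_).symm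
  rintro _ ⟨i, rfl⟩
  exact hT j i

/-- A multiplicative class of commuting operators: the vectors killed by one of them form a
subspace. -/
def killed (G : Set (Module.End K X)) (h1 : (1 : Module.End K X) ∈ G)
    (hmul : ∀ P ∈ G, ∀ Q ∈ G, P * Q ∈ G) (hcomm : ∀ P ∈ G, ∀ Q ∈ G, Commute P Q) :
    Submodule K X where
  carrier := {x | ∃ P ∈ G, P x = 0}
  zero_mem' := ⟨1, h1, map_zero _⟩
  add_mem' := by
    rintro x y ⟨P, hP, hx⟩ ⟨Q, hQ, hy⟩
    refine ⟨P * Q, hmul P hP Q hQ, ?_⟩
    rw [map_add]
    have e1 : (P * Q) x = 0 := by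
      rw [(hcomm P hP Q hQ).eq, Module.End.mul_apply, hx, map_zero]
    have e2 : (P * Q) y = 0 := by rw [Module.End.mul_apply, hy, map_zero]
    rw [e1, e2, add_zero]
  smul_mem' := by
    rintro c x ⟨P, hP, hx⟩
    exact ⟨P, hP, by rw [map_smul, hx, smul_zero]⟩

namespace Lat

variable (D : Lat A T)

lemma T_sub_mem_adjoin (i : I) (c : K) :
    T i - c • (1 : Module.End K X) ∈ Algebra.adjoin K (Set.range T) :=
  Subalgebra.sub_mem _ (Algebra.subset_adjoin ⟨i, rfl⟩)
    (Subalgebra.smul_mem _ (Subalgebra.one_mem _) c)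

/-- **P1**: integral vectors in the part of the lifts of `a` are in the part of `a`
modulo `L0`. -/
theorem part_of_mem_gpart (hT : ∀ i j, Commute (T i) (T j))
    {a : I → IsLocalRing.ResidueField A} {x : X} (hx : x ∈ D.L)
    (hxg : x ∈ gpart T (LamA A a)) : D.part a x := by
  intro i c hc hca
  let G : Set (Module.End K X) := {P | P ∈ Algebra.adjoin K (Set.range T) ∧
    ∃ n : ℕ, ∀ y ∈ D.L, P y - ((T i - c • (1 : Module.End K X)) ^ n) y ∈ D.L0 ∧ P y ∈ D.L}
  have h1 : (1 : Module.End K X) ∈ G :=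
    ⟨Subalgebra.one_mem _, 0, fun y hy => ⟨by simp [D.L0.zero_mem], hy⟩⟩
  have hmul : ∀ P ∈ G, ∀ Q ∈ G, P * Q ∈ G := by
    rintro P ⟨hP, n, hn⟩ Q ⟨hQ, m, hm⟩
    refine ⟨Subalgebra.mul_mem _ hP hQ, n + m, fun y hy => ⟨?_, (hn _ (hm y hy).2).2⟩⟩
    have e1 := (hn _ (hm y hy).2).1
    have e2 := D.pow_sub_mem0 i hc (hm y hy).1 n
    have e3 := D.L0.add_mem e1 e2
    convert e3 using 1
    rw [map_sub, Module.End.mul_apply, pow_add, Module.End.mul_apply]
    abel
  have hcomm : ∀ P ∈ G, ∀ Q ∈ G, Commute P Q := fun P hP Q hQ =>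
    commute_adjoin hT hP.1 hQ.1
  have key : gpart T (LamA A a) ≤ killed G h1 hmul hcomm := by
    refine gpart_le fun χ hχ y hy => ?_
    rw [mem_gsp] at hy
    obtain ⟨hχA, hχa⟩ := hχ i
    obtain ⟨n, hn⟩ := hy i
    refine ⟨(T i - χ i • (1 : Module.End K X)) ^ n, ⟨Subalgebra.pow_mem _
      (T_sub_mem_adjoin i _) n, n, fun z hz => ⟨?_, D.pow_sub_mem i hχA hz n⟩⟩, hn⟩
    exact D.pow_sub_congr i hc hχA (by rw [← residue_eq_iff hc hχA, hca, hχa]) hz n
  obtain ⟨P, ⟨-, n, hn⟩, hP⟩ := key hxg
  refine ⟨n, ?_⟩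
  have := (hn x hx).1
  rw [hP, zero_sub] at this
  simpa using D.L0.neg_mem this

/-- **P2**: integral vectors in the complementary part which are in the part of `a` modulo `L0`
are in `L0`. -/
theorem mem0_of_mem_compl (hT : ∀ i j, Commute (T i) (T j))
    {a : I → IsLocalRing.ResidueField A} {x : X} (hx : x ∈ D.L)
    (hxg : x ∈ gpart T (LamA A a)ᶜ) (hxa : D.part a x) : x ∈ D.L0 := by
  let G : Set (Module.End K X) := {P | P ∈ Algebra.adjoin K (Set.range T) ∧
    (∀ y ∈ D.L, P y ∈ D.L) ∧ (∀ y ∈ D.L0, P y ∈ D.L0) ∧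
    (∀ y ∈ D.L, D.part a y → P y ∈ D.L0 → y ∈ D.L0)}
  have h1 : (1 : Module.End K X) ∈ G :=
    ⟨Subalgebra.one_mem _, fun y hy => hy, fun y hy => hy, fun y _ _ hy => hy⟩
  have hpartG : ∀ P ∈ G, ∀ y, D.part a y → D.part a (P y) := by
    rintro P ⟨hP, -, h0, -⟩ y hy i c hc hca
    obtain ⟨n, hn⟩ := hy i c hc hca
    refine ⟨n, ?_⟩
    have hcm := (commute_adjoin hT (Subalgebra.pow_mem _ (T_sub_mem_adjoin i c) n) hP).eq
    have := congrArg (fun F : Module.End K X => F y) hcm
    simp only [Module.End.mul_apply] at this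
    rw [this]
    exact h0 _ hn
  have hmul : ∀ P ∈ G, ∀ Q ∈ G, P * Q ∈ G := by
    rintro P hP' Q hQ'
    obtain ⟨hP, p1, p2, p3⟩ := hP'
    have hQ'' := hQ'
    obtain ⟨hQ, q1, q2, q3⟩ := hQ'
    refine ⟨Subalgebra.mul_mem _ hP hQ, fun y hy => p1 _ (q1 y hy), fun y hy => p2 _ (q2 y hy),
      fun y hy hya hPQ => q3 y hy hya (p3 _ (q1 y hy) (hpartG Q hQ'' y hya) hPQ)⟩
  have hcomm : ∀ P ∈ G, ∀ Q ∈ G, Commute P Q := fun P hP Q hQ =>
    commute_adjoin hT hP.1 hQ.1
  have hpow : ∀ P ∈ G, ∀ n : ℕ, P ^ n ∈ G := by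
    intro P hP n
    induction n with
    | zero => simpa using h1
    | succ n ih => rw [pow_succ]; exact hmul _ ih _ hP
  have key : gpart T (LamA A a)ᶜ ≤ killed G h1 hmul hcomm := by
    refine gpart_le fun χ hχ y hy => ?_
    rw [mem_gsp] at hy
    have hχ' : ∃ i, ∀ h : χ i ∈ A, IsLocalRing.residue A ⟨χ i, h⟩ ≠ a i := by
      by_contra hcon
      push Not at hcon
      exact hχ hcon
    obtain ⟨i, hi⟩ := hχ'
    obtain ⟨n, hn⟩ := hy i
    by_cases hA : χ i ∈ A
    · refine ⟨(T i - χ i • (1 : Module.End K X)) ^ n, hpow _ ?_ n, hn⟩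
      refine ⟨T_sub_mem_adjoin i _, fun z hz => D.sub_mem i hA hz,
        fun z hz => D.sub_mem0 i hA hz, fun z hz hza hz0 => ?_⟩
      obtain ⟨⟨c, hc⟩, hca⟩ := IsLocalRing.residue_surjective (R := A) (a i)
      obtain ⟨m, hm⟩ := hza i c hc hca
      have hd : χ i - c ∉ A.nonunits := by
        rw [← residue_eq_iff hA hc, hca]
        exact hi hA
      have hdA : χ i - c ∈ A := A.sub_mem hA hc
      -- modulo `L0`, `(T - c)` is multiplication by `χ - c` on `z`
      have hkey : ∀ m : ℕ, ((T i - c • (1 : Module.End K X)) ^ m) z - (χ i - c) ^ m • z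
          ∈ D.L0 := by
        intro m
        induction m with
        | zero => simp [D.L0.zero_mem]
        | succ m ih =>
          have e1 := D.sub_mem0 i hc ih
          have e2 := D.smul_mem0 (A.pow_mem hdA m) hz0
          have e3 := D.L0.add_mem e1 e2
          convert e3 using 1
          rw [pow_succ' (T i - c • (1 : Module.End K X)), Module.End.mul_apply, map_sub,
            map_smul]
          simp only [LinearMap.sub_apply, LinearMap.smul_apply, Module.End.one_apply,
            smul_sub, smul_smul, pow_succ, sub_smul, mul_sub]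
          abel
      have h2 : (χ i - c) ^ m • z ∈ D.L0 := by
        have := D.L0.sub_mem hm (hkey m)
        rwa [sub_sub_cancel] at this
      have h3 := D.smul_mem0 (A.pow_mem (inv_mem_of_notMem_nonunits hd) m) h2
      have hne : χ i - c ≠ 0 := by
        intro h0
        exact hd (by rw [h0]; exact A.nonunits.zero_mem)
      rwa [smul_smul, ← mul_pow, inv_mul_cancel₀ hne, one_pow, one_smul] at h3
    · have hinv := inv_mem_nonunits hA
      have hne : χ i ≠ 0 := by
        intro h0
        exact hA (by rw [h0]; exact A.zero_mem)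
      refine ⟨((χ i)⁻¹ • T i - 1) ^ n, hpow _ ?_ n, ?_⟩
      · refine ⟨Subalgebra.sub_mem _ (Subalgebra.smul_mem _
          (Algebra.subset_adjoin (Set.mem_range_self i)) _)
          (Subalgebra.one_mem _), fun z hz => ?_, fun z hz => ?_, fun z hz _ hz0 => ?_⟩
        · simp only [LinearMap.sub_apply, LinearMap.smul_apply, Module.End.one_apply]
          exact D.L.sub_mem (D.smul_mem (mem_of_nonunits hinv) (D.T_mem i hz)) hz
        · simp only [LinearMap.sub_apply, LinearMap.smul_apply, Module.End.one_apply]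
          exact D.L0.sub_mem (D.smul_mem0 (mem_of_nonunits hinv) (D.T_mem0 i hz)) hz
        · simp only [LinearMap.sub_apply, LinearMap.smul_apply, Module.End.one_apply] at hz0
          have h3 := D.nonunit_smul hinv (D.T_mem i hz)
          have h4 := D.L0.sub_mem h3 hz0
          rwa [sub_sub_cancel] at h4
      · have e1 : (χ i)⁻¹ • T i - 1 = (χ i)⁻¹ • (T i - χ i • (1 : Module.End K X)) := by
          rw [smul_sub, smul_smul, inv_mul_cancel₀ hne, one_smul]
        rw [e1, smul_pow, LinearMap.smul_apply, hn, smul_zero]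
  obtain ⟨P, ⟨-, -, -, h3⟩, hP⟩ := key hxg
  exact h3 x hx hxa (by rw [hP]; exact D.L0.zero_mem)

/-- **LOWER BOUND LEMMA** -/
theorem le_finrank [IsAlgClosed K] [FiniteDimensional K X] (hT : ∀ i j, Commute (T i) (T j))
    (a : I → IsLocalRing.ResidueField A) {ι : Type*} [Fintype ι] (x : ι → X)
    (hL : ∀ j, x j ∈ D.L) (hpart : ∀ j, D.part a (x j))
    (hind : ∀ c : ι → K, (∀ j, c j ∈ A) → ∑ j, c j • x j ∈ D.L0 → ∀ j, c j ∈ A.nonunits) :
    Fintype.card ι ≤ finrank K (gpart T (LamA A a)) := by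
  have hcompl := isCompl_gpart hT (LamA A a)
  have hli : LinearIndependent K (fun j => (gpart T (LamA A a)ᶜ).mkQ (x j)) := by
    rw [Fintype.linearIndependent_iff]
    intro g hg
    by_contra hcon
    push Not at hcon
    have hg0 : g ≠ 0 := by
      rintro rfl
      obtain ⟨i, hi⟩ := hcon
      exact hi rfl
    obtain ⟨d, hd0, hdA, j, hj⟩ := exists_scale A hg0
    have h1 : ∑ j, (d * g j) • x j ∈ gpart T (LamA A a)ᶜ := by
      have h2 : ∑ j, g j • x j ∈ gpart T (LamA A a)ᶜ := by
        rw [← Submodule.ker_mkQ (gpart T (LamA A a)ᶜ), LinearMap.mem_ker, map_sum, ← hg]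
        exact Finset.sum_congr rfl fun j _ => map_smul _ _ _
      have h3 := Submodule.smul_mem _ d h2
      rw [Finset.smul_sum] at h3
      simpa only [smul_smul] using h3
    have h2 : ∑ j, (d * g j) • x j ∈ D.L :=
      AddSubgroup.sum_mem _ fun j _ => D.smul_mem (hdA j) (hL j)
    have h3 : D.part a (∑ j, (d * g j) • x j) :=
      D.part_sum _ _ fun j _ => D.part_smul (hpart j) (hdA j)
    have h4 := hind _ hdA (D.mem0_of_mem_compl hT h2 h1 h3) j
    rw [hj] at h4
    exact one_notMem_nonunits h4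
  have h1 := hli.fintype_card_le_finrank
  have h2 := Submodule.finrank_quotient_add_finrank (gpart T (LamA A a)ᶜ)
  have h3 := Submodule.finrank_add_eq_of_isCompl hcompl
  omega

/-- the same bound for the complementary part -/
theorem le_finrank_compl [IsAlgClosed K] [FiniteDimensional K X]
    (hT : ∀ i j, Commute (T i) (T j))
    (a : I → IsLocalRing.ResidueField A) {ι : Type*} [Fintype ι] (x : ι → X)
    (hL : ∀ j, x j ∈ D.L)
    (hind : ∀ c : ι → K, (∀ j, c j ∈ A) → D.part a (∑ j, c j • x j) → ∀ j, c j ∈ A.nonunits) :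
    Fintype.card ι ≤ finrank K (gpart T (LamA A a)ᶜ) := by
  have hcompl := isCompl_gpart hT (LamA A a)
  have hli : LinearIndependent K (fun j => (gpart T (LamA A a)).mkQ (x j)) := by
    rw [Fintype.linearIndependent_iff]
    intro g hg
    by_contra hcon
    push Not at hcon
    have hg0 : g ≠ 0 := by
      rintro rfl
      obtain ⟨i, hi⟩ := hcon
      exact hi rfl
    obtain ⟨d, hd0, hdA, j, hj⟩ := exists_scale A hg0
    have h1 : ∑ j, (d * g j) • x j ∈ gpart T (LamA A a) := by
      have h2 : ∑ j, g j • x j ∈ gpart T (LamA A a) := by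
        rw [← Submodule.ker_mkQ (gpart T (LamA A a)), LinearMap.mem_ker, map_sum, ← hg]
        exact Finset.sum_congr rfl fun j _ => map_smul _ _ _
      have h3 := Submodule.smul_mem _ d h2
      rw [Finset.smul_sum] at h3
      simpa only [smul_smul] using h3
    have h2 : ∑ j, (d * g j) • x j ∈ D.L :=
      AddSubgroup.sum_mem _ fun j _ => D.smul_mem (hdA j) (hL j)
    have h4 := hind _ hdA (D.part_of_mem_gpart hT h2 h1) j
    rw [hj] at h4
    exact one_notMem_nonunits h4
  have h1 := hli.fintype_card_le_finrank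
  have h2 := Submodule.finrank_quotient_add_finrank (gpart T (LamA A a))
  have h3 := Submodule.finrank_add_eq_of_isCompl hcompl
  omega

end Lat

section transfer

variable {Y : Type*} [AddCommGroup Y] [Module (IsLocalRing.ResidueField A) Y]
  {T' : I → Module.End (IsLocalRing.ResidueField A) Y}

variable (A T T') in
/-- A reduction map `π : L → Y` (extended by junk values outside of `L`). -/
structure Red where
  /-- the lattice -/
  L : AddSubgroup X
  /-- the reduction map -/
  π : X → Y
  smul_mem : ∀ {c : K} {x : X}, c ∈ A → x ∈ L → c • x ∈ L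
  T_mem : ∀ (i : I) {x : X}, x ∈ L → T i x ∈ L
  π_add : ∀ {x y : X}, x ∈ L → y ∈ L → π (x + y) = π x + π y
  π_smul : ∀ (c : A) {x : X}, x ∈ L → π ((c : K) • x) = IsLocalRing.residue A c • π x
  π_T : ∀ (i : I) {x : X}, x ∈ L → π (T i x) = T' i (π x)

namespace Red

variable (D : Red A T T')

lemma π_zero : D.π 0 = 0 := by
  have := D.π_add D.L.zero_mem D.L.zero_mem
  rw [add_zero] at this
  simpa using this

lemma π_sum {ι : Type*} (s : Finset ι) (c : ι → A) (x : ι → X) (h : ∀ j ∈ s, x j ∈ D.L) :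
    D.π (∑ j ∈ s, (c j : K) • x j) = ∑ j ∈ s, IsLocalRing.residue A (c j) • D.π (x j) := by
  classical
  induction s using Finset.induction_on with
  | empty => simpa using D.π_zero
  | insert j s hj ih =>
    rw [Finset.sum_insert hj, Finset.sum_insert hj,
      D.π_add (D.smul_mem (c j).2 (h j (Finset.mem_insert_self j s)))
        (AddSubgroup.sum_mem _ fun i hi => D.smul_mem (c i).2 (h i (Finset.mem_insert_of_mem hi))),
      D.π_smul _ (h j (Finset.mem_insert_self j s)),
      ih fun i hi => h i (Finset.mem_insert_of_mem hi)]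

/-- the underlying pair of lattices -/
def toLat : Lat A T where
  L := D.L
  L0 :=
    { carrier := {x | x ∈ D.L ∧ D.π x = 0}
      zero_mem' := ⟨D.L.zero_mem, D.π_zero⟩
      add_mem' := fun {x y} hx hy => ⟨D.L.add_mem hx.1 hy.1, by
        rw [D.π_add hx.1 hy.1, hx.2, hy.2, add_zero]⟩
      neg_mem' := fun {x} hx => ⟨D.L.neg_mem hx.1, by
        have := D.π_smul (-1) hx.1
        rw [hx.2, smul_zero] at this
        simpa using this⟩ }
  smul_mem := D.smul_mem
  T_mem := D.T_mem
  smul_mem0 := fun {c x} hc hx => ⟨D.smul_mem hc hx.1, by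
    have := D.π_smul ⟨c, hc⟩ hx.1
    rwa [hx.2, smul_zero] at this⟩
  T_mem0 := fun i x hx => ⟨D.T_mem i hx.1, by rw [D.π_T i hx.1, hx.2, map_zero]⟩
  nonunit_smul := fun {c x} hc hx => ⟨D.smul_mem (mem_of_nonunits hc) hx, by
    have := D.π_smul ⟨c, mem_of_nonunits hc⟩ hx
    rwa [(residue_eq_zero_iff' (mem_of_nonunits hc)).mpr hc, zero_smul] at this⟩

lemma mem_L0 {x : X} : x ∈ D.toLat.L0 ↔ x ∈ D.L ∧ D.π x = 0 := Iff.rfl

lemma toLat_L : D.toLat.L = D.L := rfl

lemma π_pow_sub (i : I) (c : A) {x : X} (hx : x ∈ D.L) (n : ℕ) :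
    D.π (((T i - (c : K) • (1 : Module.End K X)) ^ n) x) =
      ((T' i - IsLocalRing.residue A c •
        (1 : Module.End (IsLocalRing.ResidueField A) Y)) ^ n) (D.π x) := by
  induction n with
  | zero => simp
  | succ n ih =>
    have h1 := D.toLat.pow_sub_mem i c.2 hx n
    rw [pow_succ', Module.End.mul_apply, pow_succ', Module.End.mul_apply, ← ih]
    simp only [LinearMap.sub_apply, LinearMap.smul_apply, Module.End.one_apply]
    rw [sub_eq_add_neg, ← neg_smul,
      D.π_add (D.T_mem i h1) (D.smul_mem (A.neg_mem _ c.2) h1), D.π_T i h1,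
      show -(c : K) = ((-c : A) : K) from rfl, D.π_smul _ h1, map_neg, neg_smul,
      ← sub_eq_add_neg]

lemma part_iff {a : I → IsLocalRing.ResidueField A} {x : X} (hx : x ∈ D.L) :
    D.toLat.part a x ↔ D.π x ∈ gsp T' a := by
  rw [mem_gsp]
  constructor
  · intro h i
    obtain ⟨c, hc⟩ := IsLocalRing.residue_surjective (R := A) (a i)
    obtain ⟨n, hn⟩ := h i c c.2 hc
    refine ⟨n, ?_⟩
    rw [← hc, ← D.π_pow_sub i c hx n]
    exact hn.2
  · intro h i c hc hca
    obtain ⟨n, hn⟩ := h i
    refine ⟨n, D.toLat.pow_sub_mem i hc hx n, ?_⟩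
    have := D.π_pow_sub i ⟨c, hc⟩ hx n
    rw [hca, hn] at this
    exact this

/-- **TRANSFER**, inequality without dimension hypothesis -/
theorem finrank_le [IsAlgClosed K] [FiniteDimensional K X]
    [FiniteDimensional (IsLocalRing.ResidueField A) Y]
    (hT : ∀ i j, Commute (T i) (T j)) (hsurj : ∀ y : Y, ∃ x ∈ D.L, D.π x = y)
    (a : I → IsLocalRing.ResidueField A) :
    finrank (IsLocalRing.ResidueField A) (gsp T' a) ≤ finrank K (gpart T (LamA A a)) := by
  let b := Module.finBasis (IsLocalRing.ResidueField A) (gsp T' a)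
  choose x hxL hx using fun j => hsurj (b j : Y)
  have h := D.toLat.le_finrank hT a x hxL (fun j => (D.part_iff (hxL j)).mpr (by
    rw [hx j]; exact (b j).2)) (fun c hc hc0 j => by
    have h1 := D.π_sum Finset.univ (fun j => (⟨c j, hc j⟩ : A)) x (fun j _ => hxL j)
    have h2 : ∑ j, IsLocalRing.residue A ⟨c j, hc j⟩ • b j = 0 := by
      apply Subtype.ext
      rw [Submodule.coe_sum]
      simp only [Submodule.coe_smul, ZeroMemClass.coe_zero]
      rw [← hc0.2, h1]
      exact Finset.sum_congr rfl fun j _ => by rw [hx j]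
    have h3 := (Fintype.linearIndependent_iff.mp b.linearIndependent) _ h2 j
    exact (residue_eq_zero_iff' (hc j)).mp h3)
  rwa [Fintype.card_fin] at h

/-- the same for the complement -/
theorem finrank_le_compl [IsAlgClosed K] [FiniteDimensional K X]
    [FiniteDimensional (IsLocalRing.ResidueField A) Y]
    (hT : ∀ i j, Commute (T i) (T j)) (hT' : ∀ i j, Commute (T' i) (T' j))
    (hsurj : ∀ y : Y, ∃ x ∈ D.L, D.π x = y) (a : I → IsLocalRing.ResidueField A) :
    finrank (IsLocalRing.ResidueField A) (gpart T' {a}ᶜ) ≤ finrank K (gpart T (LamA A a)ᶜ) := by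
  let b := Module.finBasis (IsLocalRing.ResidueField A) (gpart T' {a}ᶜ)
  choose x hxL hx using fun j => hsurj (b j : Y)
  have h := D.toLat.le_finrank_compl hT a x hxL (fun c hc hc0 j => by
    have h1 := D.π_sum Finset.univ (fun j => (⟨c j, hc j⟩ : A)) x (fun j _ => hxL j)
    have hL : ∑ j, c j • x j ∈ D.L := AddSubgroup.sum_mem _ fun j _ => D.smul_mem (hc j) (hxL j)
    have h4 := (D.part_iff hL).mp hc0
    have h5 : D.π (∑ j, c j • x j) ∈ gpart T' {a}ᶜ := by
      have h1' : D.π (∑ j, c j • x j) = _ := h1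
      rw [h1']
      refine Submodule.sum_mem _ fun j _ => Submodule.smul_mem _ _ ?_
      rw [hx j]
      exact (b j).2
    have h6 : D.π (∑ j, c j • x j) = 0 := by
      have hd := (disjoint_gpart hT' (disjoint_compl_right (a := ({a} : Set _)))).eq_bot
      rw [← Submodule.mem_bot (IsLocalRing.ResidueField A), ← hd, gpart_singleton]
      exact ⟨h4, h5⟩
    have h2 : ∑ j, IsLocalRing.residue A ⟨c j, hc j⟩ • b j = 0 := by
      apply Subtype.ext
      rw [Submodule.coe_sum]
      simp only [Submodule.coe_smul, ZeroMemClass.coe_zero]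
      rw [← h6]
      have h1' : D.π (∑ j, c j • x j) = _ := h1
      rw [h1']
      exact Finset.sum_congr rfl fun j _ => by rw [hx j]
    have h3 := (Fintype.linearIndependent_iff.mp b.linearIndependent) _ h2 j
    exact (residue_eq_zero_iff' (hc j)).mp h3)
  rwa [Fintype.card_fin] at h

/-- **TRANSFER** -/
theorem finrank_eq [IsAlgClosed K] [FiniteDimensional K X]
    [IsAlgClosed (IsLocalRing.ResidueField A)]
    [FiniteDimensional (IsLocalRing.ResidueField A) Y]
    (hT : ∀ i j, Commute (T i) (T j)) (hT' : ∀ i j, Commute (T' i) (T' j))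
    (hsurj : ∀ y : Y, ∃ x ∈ D.L, D.π x = y)
    (hdim : finrank K X = finrank (IsLocalRing.ResidueField A) Y)
    (a : I → IsLocalRing.ResidueField A) :
    finrank K (gpart T (LamA A a)) = finrank (IsLocalRing.ResidueField A) (gsp T' a) := by
  have h1 := D.finrank_le hT hsurj a
  have h2 := D.finrank_le_compl hT hT' hsurj a
  have h3 := Submodule.finrank_add_eq_of_isCompl (isCompl_gpart hT (LamA A a))
  have h4 := Submodule.finrank_add_eq_of_isCompl (isCompl_gpart hT' {a})
  rw [gpart_singleton] at h4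
  omega

end Red

end transfer

section echelon

/-- **Echelon form** over a valuation ring. -/
theorem exists_echelon (A : ValuationSubring K) {J : Type*} [Finite J] (n : ℕ) :
    ∀ W : Submodule K (J → K), finrank K W = n →
      ∃ (b : Fin n → (J → K)) (s : Fin n → J), (∀ i, b i ∈ W) ∧ (∀ i j, b i j ∈ A) ∧
        ∀ i j, b i (s j) = if i = j then 1 else 0 := by
  classical
  induction n with
  | zero => exact fun W _ => ⟨fun i => i.elim0, fun i => i.elim0, fun i => i.elim0,
      fun i => i.elim0, fun i => i.elim0⟩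
  | succ n ih =>
    intro W hW
    have hne : W ≠ ⊥ := by
      rintro rfl
      rw [finrank_bot] at hW
      omega
    obtain ⟨w, hwW, hw0⟩ := Submodule.exists_mem_ne_zero_of_ne_bot hne
    obtain ⟨d, hd0, hdA, s₀, hs₀⟩ := exists_scale A hw0
    let w₁ : J → K := d • w
    have hw₁W : w₁ ∈ W := W.smul_mem d hwW
    have hw₁s : w₁ s₀ = 1 := hs₀
    let W' : Submodule K (J → K) := W ⊓ LinearMap.ker (LinearMap.proj (R := K) (φ := fun _ => K) s₀)
    have hW' : finrank K W' = n := by
      let g : W →ₗ[K] K := (LinearMap.proj (R := K) (φ := fun _ : J => K) s₀) ∘ₗ W.subtype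
      have hg : LinearMap.range g = ⊤ := by
        rw [LinearMap.range_eq_top]
        intro c
        exact ⟨⟨c • w₁, W.smul_mem c hw₁W⟩, by
          show (c • w₁) s₀ = c
          rw [Pi.smul_apply, hw₁s, smul_eq_mul, mul_one]⟩
      have h1 := LinearMap.finrank_range_add_finrank_ker g
      rw [hg, finrank_top, finrank_self, hW] at h1
      have h2 : (LinearMap.ker g).map W.subtype = W' := by
        ext x
        constructor
        · rintro ⟨y, hy, rfl⟩
          exact ⟨y.2, hy⟩
        · rintro ⟨hx1, hx2⟩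
          exact ⟨⟨x, hx1⟩, hx2, rfl⟩
      have h3 : finrank K W' = finrank K (LinearMap.ker g) := by
        rw [← h2]
        exact (LinearEquiv.finrank_eq (Submodule.equivMapOfInjective _
          (Submodule.injective_subtype _) _)).symm
      omega
    obtain ⟨b, s, hbW, hbA, hbs⟩ := ih W' hW'
    have hbs₀ : ∀ i, b i s₀ = 0 := fun i => (hbW i).2
    let w₂ : J → K := w₁ - ∑ j, w₁ (s j) • b j
    have hw₂W : w₂ ∈ W := W.sub_mem hw₁W (W.sum_mem fun j _ => W.smul_mem _ (hbW j).1)
    have hw₂A : ∀ j, w₂ j ∈ A := by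
      intro j
      show w₁ j - (∑ i, w₁ (s i) • b i) j ∈ A
      rw [Finset.sum_apply]
      exact A.sub_mem (hdA j) (A.toSubring.sum_mem fun i _ => A.mul_mem _ _ (hdA (s i)) (hbA i j))
    have hw₂s : ∀ j, w₂ (s j) = 0 := by
      intro j
      show w₁ (s j) - (∑ i, w₁ (s i) • b i) (s j) = 0
      rw [Finset.sum_apply, Finset.sum_eq_single j]
      · simp [hbs]
      · intro i _ hij
        simp [hbs, hij]
      · simp
    have hw₂s₀ : w₂ s₀ = 1 := by
      show w₁ s₀ - (∑ i, w₁ (s i) • b i) s₀ = 1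
      rw [Finset.sum_apply, hw₁s]
      simp [hbs₀]
    refine ⟨Fin.cons w₂ b, Fin.cons s₀ s, ?_, ?_, ?_⟩
    · intro i
      refine Fin.cases ?_ (fun i => ?_) i
      · simpa using hw₂W
      · simpa using (hbW i).1
    · intro i j
      refine Fin.cases ?_ (fun i => ?_) i
      · simpa using hw₂A j
      · simpa using hbA i j
    · intro i j
      refine Fin.cases ?_ (fun i => ?_) i <;> refine Fin.cases ?_ (fun j => ?_) j
      · simpa using hw₂s₀
      · have : ¬ (0 : Fin (n + 1)) = j.succ := (Fin.succ_ne_zero j).symm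
        simpa [this] using hw₂s j
      · simpa [Fin.succ_ne_zero] using hbs₀ i
      · simpa using hbs i j

variable {J : Type*}

/-- reduction of vectors with integral coordinates -/
def redVec (A : ValuationSubring K) (v : J → A) : J → IsLocalRing.ResidueField A :=
  fun j => IsLocalRing.residue A (v j)

variable (A) in
/-- the reduction of a subspace -/
def redSub (W : Submodule K (J → K)) : Submodule (IsLocalRing.ResidueField A)
    (J → IsLocalRing.ResidueField A) where
  carrier := {y | ∃ v : J → A, (fun j => (v j : K)) ∈ W ∧ redVec A v = y}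
  zero_mem' := ⟨0, by
    have : (fun j => (((0 : J → A) j : A) : K)) = 0 := rfl
    rw [this]; exact W.zero_mem, by funext j; exact map_zero _⟩
  add_mem' := by
    rintro _ _ ⟨v, hv, rfl⟩ ⟨w, hw, rfl⟩
    exact ⟨v + w, W.add_mem hv hw, by funext j; exact map_add _ _ _⟩
  smul_mem' := by
    rintro c _ ⟨v, hv, rfl⟩
    obtain ⟨c, rfl⟩ := IsLocalRing.residue_surjective (R := A) c
    exact ⟨c • v, W.smul_mem (c : K) hv, by funext j; exact map_mul _ _ _⟩

lemma mem_redSub {W : Submodule K (J → K)} {y : J → IsLocalRing.ResidueField A} :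
    y ∈ redSub A W ↔ ∃ v : J → A, (fun j => (v j : K)) ∈ W ∧ redVec A v = y := Iff.rfl

/-- reduction preserves the dimension -/
theorem finrank_redSub [Finite J] (W : Submodule K (J → K)) :
    finrank (IsLocalRing.ResidueField A) (redSub A W) = finrank K W := by
  classical
  have := Fintype.ofFinite J
  obtain ⟨b, s, hbW, hbA, hbs⟩ := exists_echelon A (finrank K W) W rfl
  let n := finrank K W
  let b' : Fin n → (J → A) := fun i j => ⟨b i j, hbA i j⟩
  let bb : Fin n → (J → IsLocalRing.ResidueField A) := fun i => redVec A (b' i)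
  have hbbs : ∀ i j, bb i (s j) = if i = j then 1 else 0 := by
    intro i j
    show IsLocalRing.residue A ⟨b i (s j), _⟩ = _
    by_cases h : i = j
    · subst h
      have : (⟨b i (s i), hbA i (s i)⟩ : A) = 1 := Subtype.ext (by simp [hbs])
      rw [this, map_one, if_pos rfl]
    · have : (⟨b i (s j), hbA i (s j)⟩ : A) = 0 := Subtype.ext (by simp [hbs, h])
      rw [this, map_zero, if_neg h]
  -- `b` spans `W`
  have hli : LinearIndependent K b := by
    rw [Fintype.linearIndependent_iff]
    intro g hg i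
    have := congrFun hg (s i)
    rw [Finset.sum_apply, Finset.sum_eq_single i] at this
    · simpa [hbs] using this
    · intro j _ hj
      simp [hbs, hj]
    · simp
  have hspan : Submodule.span K (Set.range b) = W := by
    apply Submodule.eq_of_le_of_finrank_eq
    · rw [Submodule.span_le]
      rintro _ ⟨i, rfl⟩
      exact hbW i
    · rw [finrank_span_eq_card hli, Fintype.card_fin]
  have hcoord : ∀ w ∈ W, w = ∑ i, w (s i) • b i := by
    intro w hw
    rw [← hspan, Submodule.mem_span_range_iff_exists_fun] at hw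
    obtain ⟨c, hc⟩ := hw
    have h1 : ∀ i, w (s i) = c i := by
      intro i
      rw [← hc, Finset.sum_apply, Finset.sum_eq_single i]
      · simp [hbs]
      · intro j _ hj
        simp [hbs, hj]
      · simp
    rw [← hc]
    refine Finset.sum_congr rfl fun i _ => ?_
    rw [hc, h1 i]
  have hli' : LinearIndependent (IsLocalRing.ResidueField A) bb := by
    rw [Fintype.linearIndependent_iff]
    intro g hg i
    have := congrFun hg (s i)
    rw [Finset.sum_apply, Finset.sum_eq_single i] at this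
    · simpa [hbbs] using this
    · intro j _ hj
      simp [hbbs, hj]
    · simp
  have hspan' : Submodule.span (IsLocalRing.ResidueField A) (Set.range bb) = redSub A W := by
    apply le_antisymm
    · rw [Submodule.span_le]
      rintro _ ⟨i, rfl⟩
      exact ⟨b' i, hbW i, rfl⟩
    · rintro _ ⟨v, hv, rfl⟩
      rw [Submodule.mem_span_range_iff_exists_fun]
      refine ⟨fun i => IsLocalRing.residue A (v (s i)), ?_⟩
      have h1 := hcoord _ hv
      have h2 : v = ∑ i, v (s i) • b' i := by
        funext j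
        apply Subtype.ext
        have h3 := congrFun h1 j
        simp only [Finset.sum_apply, Pi.smul_apply, smul_eq_mul] at h3 ⊢
        rw [AddSubmonoidClass.coe_finsetSum]
        exact h3
      funext j
      have h3 := congrArg (fun v : J → A => IsLocalRing.residue A (v j)) h2
      simp only [Finset.sum_apply, Pi.smul_apply, smul_eq_mul, map_sum, map_mul] at h3
      show _ = IsLocalRing.residue A (v j)
      rw [h3]
      simp only [Finset.sum_apply, Pi.smul_apply, smul_eq_mul]
      rfl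
  rw [← hspan', finrank_span_eq_card hli', Fintype.card_fin]

lemma redSub_mono {W W' : Submodule K (J → K)} (h : W ≤ W') : redSub A W ≤ redSub A W' := by
  rintro _ ⟨v, hv, rfl⟩
  exact ⟨v, h hv, rfl⟩

end echelon

end Fermat.Agent.H24H
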