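import Mathlib
import Fermat.Agent.H24ES.Main
import Fermat.Agent.TC.Old

/-!
# The Hecke operators `T_ℓ` on `H¹(Γ₀(N), ρ)` commute
-/

set_option autoImplicit false

noncomputable section

namespace Fermat.Agent.H24H

open CongruenceSubgroup Matrix Fermat.Agent.H24ES
open scoped MatrixGroups

variable {N : ℕ}

/-- splitting off a right factor of determinant `ℓ` -/
lemma exists_split {ℓ : ℕ} (hℓ : ℓ.Prime) (hℓN : ¬ ℓ ∣ N) {B : M2} (hdet : (ℓ : ℤ) ∣ B.det)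
    (hN : (N : ℤ) ∣ B 1 0) :
    ∃ (i : Option (Fin ℓ)) (C : M2), B = C * tα ℓ i ∧ (N : ℤ) ∣ C 1 0 := by
  have hℓ0 : (ℓ : ℤ) ≠ 0 := by exact_mod_cast hℓ.ne_zero
  have hp := Nat.prime_iff_prime_int.mp hℓ
  obtain ⟨m, hm⟩ := hdet
  have hdet' : B 0 0 * B 1 1 - B 0 1 * B 1 0 = ℓ * m := by rw [← Matrix.det_fin_two]; exact hm
  by_cases hcol : (ℓ : ℤ) ∣ B 0 0 ∧ (ℓ : ℤ) ∣ B 1 0
  · obtain ⟨⟨x, hx⟩, ⟨y, hy⟩⟩ := hcol
    refine ⟨none, !![x, B 0 1; y, B 1 1], ?_, ?_⟩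
    · rw [tα_none, diM]
      ext a b
      fin_cases a <;> fin_cases b
      · simp [Matrix.mul_apply, Fin.sum_univ_two]; rw [hx]; ring
      · simp [Matrix.mul_apply, Fin.sum_univ_two]
      · simp [Matrix.mul_apply, Fin.sum_univ_two]; rw [hy]; ring
      · simp [Matrix.mul_apply, Fin.sum_univ_two]
    · show (N : ℤ) ∣ y
      have hcop : IsCoprime (N : ℤ) (ℓ : ℤ) := by
        rw [Nat.isCoprime_iff_coprime, Nat.coprime_comm]
        exact (Nat.Prime.coprime_iff_not_dvd hℓ).mpr hℓN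
      exact hcop.dvd_of_dvd_mul_left (by rw [← hy]; exact hN)
  · obtain ⟨j, h0, h1⟩ : ∃ j : ℤ, (ℓ : ℤ) ∣ B 0 1 - j * B 0 0 ∧ (ℓ : ℤ) ∣ B 1 1 - j * B 1 0 := by
      by_cases h00 : (ℓ : ℤ) ∣ B 0 0
      · have h10 : ¬ (ℓ : ℤ) ∣ B 1 0 := fun h => hcol ⟨h00, h⟩
        obtain ⟨a, b, hab⟩ := (Prime.coprime_iff_not_dvd hp).mpr h10
        refine ⟨b * B 1 1, ?_, ?_⟩
        · have h2 : (ℓ : ℤ) ∣ B 1 0 * (B 0 1 - b * B 1 1 * B 0 0) := by
            have e : B 1 0 * (B 0 1 - b * B 1 1 * B 0 0) =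
                (B 0 0 * B 1 1 - ℓ * m) - b * B 1 1 * B 0 0 * B 1 0 := by
              linear_combination -hdet'
            rw [e]
            exact dvd_sub (dvd_sub (h00.mul_right _) (Dvd.intro _ rfl))
              (((h00.mul_left _)).mul_right _)
          exact (hp.dvd_or_dvd h2).resolve_left h10
        · exact ⟨a * B 1 1, by linear_combination -(B 1 1) * hab⟩
      · obtain ⟨a, b, hab⟩ := (Prime.coprime_iff_not_dvd hp).mpr h00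
        refine ⟨b * B 0 1, ?_, ?_⟩
        · exact ⟨a * B 0 1, by linear_combination -(B 0 1) * hab⟩
        · have h2 : (ℓ : ℤ) ∣ B 0 0 * (B 1 1 - b * B 0 1 * B 1 0) := by
            refine ⟨m + a * (B 0 1 * B 1 0), ?_⟩
            linear_combination hdet' - (B 0 1 * B 1 0) * hab
          exact (hp.dvd_or_dvd h2).resolve_left h00
    have hjm : 0 ≤ j % ℓ ∧ j % ℓ < ℓ :=
      ⟨Int.emod_nonneg _ hℓ0, Int.emod_lt_of_pos _ (by exact_mod_cast hℓ.pos)⟩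
    let j' : Fin ℓ := ⟨(j % ℓ).toNat, by
      have := hjm.2; have := hjm.1; omega⟩
    have hj' : ((j' : ℕ) : ℤ) = j % ℓ := Int.toNat_of_nonneg hjm.1
    have hdiv : (ℓ : ℤ) ∣ j - j % ℓ := Int.dvd_self_sub_emod
    obtain ⟨x, hx⟩ : (ℓ : ℤ) ∣ B 0 1 - (j' : ℕ) * B 0 0 := by
      rw [hj', show B 0 1 - j % ℓ * B 0 0 = (B 0 1 - j * B 0 0) + (j - j % ℓ) * B 0 0 by ring]
      exact dvd_add h0 (hdiv.mul_right _)
    obtain ⟨y, hy⟩ : (ℓ : ℤ) ∣ B 1 1 - (j' : ℕ) * B 1 0 := by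
      rw [hj', show B 1 1 - j % ℓ * B 1 0 = (B 1 1 - j * B 1 0) + (j - j % ℓ) * B 1 0 by ring]
      exact dvd_add h1 (hdiv.mul_right _)
    refine ⟨some j', !![B 0 0, x; B 1 0, y], ?_, by simpa using hN⟩
    rw [tα_some, upM]
    ext a b
    fin_cases a <;> fin_cases b
    · simp [Matrix.mul_apply, Fin.sum_univ_two]
    · simp [Matrix.mul_apply, Fin.sum_univ_two]; linear_combination hx
    · simp [Matrix.mul_apply, Fin.sum_univ_two]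
    · simp [Matrix.mul_apply, Fin.sum_univ_two]; linear_combination hy

/-- The product of two Hecke families -/
def prodFam {ι ι' : Type*} (F : HFam N ι) (F' : HFam N ι')
    (h : ∀ i i' j j' (γ : Gamma0 N), F'.α j * F.α i = gm γ * (F'.α j' * F.α i') →
      i = i' ∧ j = j') : HFam N (ι × ι') where
  α p := F'.α p.2 * F.α p.1
  det_pos p := by rw [Matrix.det_mul]; exact mul_pos (F'.det_pos _) (F.det_pos _)
  σ γ p := (F.σ γ p.1, F'.σ (F.τ γ p.1) p.2)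
  τ γ p := F'.τ (F.τ γ p.1) p.2
  spec γ p := by
    show F'.α p.2 * F.α p.1 * gm γ = gm _ * (F'.α _ * F.α _)
    rw [mul_assoc, F.spec, ← mul_assoc, F'.spec, mul_assoc]
  uniq p p' γ hp := by
    obtain ⟨h1, h2⟩ := h p.1 p'.1 p.2 p'.2 γ hp
    exact Prod.ext h1 h2

section op

variable {R V : Type*} [CommRing R] [AddCommGroup V] [Module R V] (ρ : M2 →* Module.End R V)
  {ι ι' : Type*} [Fintype ι] [Fintype ι']

lemma op_prodFam (F : HFam N ι) (F' : HFam N ι')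
    (h : ∀ i i' j j' (γ : Gamma0 N), F'.α j * F.α i = gm γ * (F'.α j' * F.α i') →
      i = i' ∧ j = j') (u : Gamma0 N → V) :
    (prodFam F F' h).op ρ u = F.op ρ (F'.op ρ u) := by
  funext γ
  rw [HFam.op_apply, HFam.op_apply, Fintype.sum_prod_type]
  refine Finset.sum_congr rfl fun i _ => ?_
  rw [HFam.op_apply, map_sum]
  refine Finset.sum_congr rfl fun j _ => ?_
  show ρ (F'.α j * F.α i).adjugate _ = _
  rw [Matrix.adjugate_mul_distrib, map_mul]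
  rfl

lemma opH_prodFam (F : HFam N ι) (F' : HFam N ι')
    (h : ∀ i i' j j' (γ : Gamma0 N), F'.α j * F.α i = gm γ * (F'.α j' * F.α i') →
      i = i' ∧ j = j') :
    (prodFam F F' h).opH ρ = F.opH ρ * F'.opH ρ := by
  apply LinearMap.ext
  intro x
  obtain ⟨u, rfl⟩ := Submodule.Quotient.mk_surjective _ x
  rw [Module.End.mul_apply, HFam.opH_mk, HFam.opH_mk, HFam.opH_mk]
  congr 1
  apply Subtype.ext
  exact op_prodFam ρ F F' h u.1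

end op

/-- uniqueness for the product of two `T` families -/
lemma tα_prod_uniq {ℓ ℓ' : ℕ} (hℓ : ℓ.Prime) (hℓ' : ℓ'.Prime) (hne : ℓ ≠ ℓ')
    (i i' : Option (Fin ℓ)) (j j' : Option (Fin ℓ')) (γ : Gamma0 N)
    (h : tα ℓ' j * tα ℓ i = gm γ * (tα ℓ' j' * tα ℓ i')) : i = i' ∧ j = j' := by
  have hℓ0 : (ℓ : ℤ) ≠ 0 := by exact_mod_cast hℓ.ne_zero
  have hp := Nat.prime_iff_prime_int.mp hℓ
  have hcop : ¬ (ℓ : ℤ) ∣ (ℓ' : ℤ) := by
    intro hd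
    have : ℓ ∣ ℓ' := by exact_mod_cast hd
    exact hne ((Nat.prime_dvd_prime_iff_eq hℓ hℓ').mp this)
  -- `ℓ' • (α_i adj α_{i'}) = ℓ • (...)`
  have h1 : (ℓ' : ℤ) • (tα ℓ i * (tα ℓ i').adjugate) =
      (ℓ : ℤ) • ((tα ℓ' j).adjugate * gm γ * tα ℓ' j') := by
    have h2 := congrArg (fun B : M2 => (tα ℓ' j).adjugate * B * (tα ℓ i').adjugate) h
    have e1 : (tα ℓ' j).adjugate * (tα ℓ' j * tα ℓ i) * (tα ℓ i').adjugate =
        (ℓ' : ℤ) • (tα ℓ i * (tα ℓ i').adjugate) := by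
      rw [← mul_assoc, Matrix.adjugate_mul, det_tα, Matrix.smul_mul, one_mul, Matrix.smul_mul]
    have e2 : (tα ℓ' j).adjugate * (gm γ * (tα ℓ' j' * tα ℓ i')) * (tα ℓ i').adjugate =
        (ℓ : ℤ) • ((tα ℓ' j).adjugate * gm γ * tα ℓ' j') := by
      simp only [mul_assoc]
      rw [Matrix.mul_adjugate, det_tα]
      simp only [Matrix.mul_smul, mul_one]
    rw [e1, e2] at h2
    exact h2
  have h2 : ∀ a b, (ℓ : ℤ) ∣ (tα ℓ i * (tα ℓ i').adjugate) a b := by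
    intro a b
    have h3 := congrFun (congrFun h1 a) b
    simp only [Matrix.smul_apply, smul_eq_mul] at h3
    have h4 : (ℓ : ℤ) ∣ (ℓ' : ℤ) * (tα ℓ i * (tα ℓ i').adjugate) a b := ⟨_, h3⟩
    exact (hp.dvd_or_dvd h4).resolve_left hcop
  choose B hB using h2
  have hB10 : B 1 0 = 0 := by
    have h3 := hB 1 0
    have h4 : (tα ℓ i * (tα ℓ i').adjugate) 1 0 = 0 := by
      cases i <;> cases i' <;> simp [diM, upM, Matrix.mul_apply, Fin.sum_univ_two,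
        Matrix.adjugate_fin_two_of]
    rw [h4] at h3
    exact (mul_eq_zero.mp h3.symm).resolve_left hℓ0
  obtain ⟨δ, hδ⟩ := exists_of_mul (N := N) (ℓ := ℓ) (A := tα ℓ i) (C := tα ℓ i')
    (B := Matrix.of B) (det_tα i) hℓ0 (det_tα i') (by
      ext a b
      rw [hB a b]; rfl) (by
      show (N : ℤ) ∣ B 1 0
      rw [hB10]; exact dvd_zero _)
  have hi := tα_uniq hℓ i i' δ hδ
  refine ⟨hi, ?_⟩
  subst hi
  have h5 : tα ℓ' j = gm γ * tα ℓ' j' := by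
    apply mul_right_cancel_det (C := tα ℓ i) (by rw [det_tα]; exact hℓ0)
    rw [h, mul_assoc]
  exact tα_uniq hℓ' j j' γ h5

lemma tα_10 {ℓ : ℕ} (i : Option (Fin ℓ)) : (tα ℓ i) 1 0 = 0 := by
  cases i <;> simp [diM, upM]

/-- covering for the product -/
lemma exists_tα_prod {ℓ ℓ' : ℕ} (hℓ : ℓ.Prime) (hℓ' : ℓ'.Prime) (hℓN : ¬ ℓ ∣ N)
    (hℓ'N : ¬ ℓ' ∣ N) {B : M2} (hdet : B.det = ℓ * ℓ') (hN : (N : ℤ) ∣ B 1 0) :
    ∃ (i : Option (Fin ℓ)) (j : Option (Fin ℓ')) (γ : Gamma0 N),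
      B = gm γ * (tα ℓ' j * tα ℓ i) := by
  have hℓ0 : (ℓ : ℤ) ≠ 0 := by exact_mod_cast hℓ.ne_zero
  obtain ⟨i, C, hC, hCN⟩ := exists_split hℓ hℓN (B := B) (by rw [hdet]; exact Dvd.intro _ rfl) hN
  have hCd : C.det = ℓ' := by
    rw [hC, Matrix.det_mul, det_tα, mul_comm] at hdet
    exact mul_left_cancel₀ hℓ0 hdet
  obtain ⟨j, γ, hγ⟩ := exists_tα hℓ' hℓ'N hCd hCN
  exact ⟨i, j, γ, by rw [hC, hγ, mul_assoc]⟩

section main

variable {R V : Type*} [CommRing R] [AddCommGroup V] [Module R V] (ρ : M2 →* Module.End R V)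

/-- **The Hecke operators commute.** -/
theorem TF_comm {ℓ ℓ' : ℕ} (hℓ : ℓ.Prime) (hℓ' : ℓ'.Prime) (hℓN : ¬ ℓ ∣ N) (hℓ'N : ¬ ℓ' ∣ N) :
    Commute ((TF N ℓ hℓ hℓN).opH ρ) ((TF N ℓ' hℓ' hℓ'N).opH ρ) := by
  by_cases hne : ℓ = ℓ'
  · subst hne; exact Commute.refl _
  let F := TF N ℓ hℓ hℓN
  let F' := TF N ℓ' hℓ' hℓ'N
  have u1 : ∀ i i' j j' (γ : Gamma0 N), F'.α j * F.α i = gm γ * (F'.α j' * F.α i') →
      i = i' ∧ j = j' := fun i i' j j' γ h => tα_prod_uniq hℓ hℓ' hne i i' j j' γ h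
  have u2 : ∀ i i' j j' (γ : Gamma0 N), F.α j * F'.α i = gm γ * (F.α j' * F'.α i') →
      i = i' ∧ j = j' := fun i i' j j' γ h => tα_prod_uniq hℓ' hℓ (Ne.symm hne) i i' j j' γ h
  show F.opH ρ * F'.opH ρ = F'.opH ρ * F.opH ρ
  rw [← opH_prodFam ρ F F' u1, ← opH_prodFam ρ F' F u2]
  refine HFam.opH_eq_of_cover ρ _ _ ?_ ?_
  · rintro ⟨i, j⟩
    obtain ⟨j', i', γ, h⟩ := exists_tα_prod (N := N) hℓ' hℓ hℓ'N hℓN
      (B := tα ℓ' j * tα ℓ i) (by rw [Matrix.det_mul, det_tα, det_tα])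
      (by rw [Matrix.mul_apply, Fin.sum_univ_two, tα_10, tα_10]; simp)
    exact ⟨(j', i'), γ, h⟩
  · rintro ⟨i, j⟩
    obtain ⟨j', i', γ, h⟩ := exists_tα_prod (N := N) hℓ hℓ' hℓN hℓ'N
      (B := tα ℓ j * tα ℓ' i) (by rw [Matrix.det_mul, det_tα, det_tα])
      (by rw [Matrix.mul_apply, Fin.sum_univ_two, tα_10, tα_10]; simp)
    exact ⟨(j', i'), γ, h⟩

open TC (Pr)

/-- The Hecke operators `T_ℓ`, `ℓ ∤ D`, on `H¹(Γ₀(N), ρ)`, `N ∣ D`. -/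
def TH {D : ℕ} (hND : N ∣ D) (ℓ : Pr D) : Module.End R (H1 N ρ) :=
  (TF N ℓ.1 ℓ.2.1 (fun h => ℓ.2.2 (h.trans hND))).opH ρ

lemma TH_comm {D : ℕ} (hND : N ∣ D) (ℓ ℓ' : Pr D) : Commute (TH ρ hND ℓ) (TH ρ hND ℓ') :=
  TF_comm ρ ℓ.2.1 ℓ'.2.1 _ _

/-- The Hecke operators `T_ℓ`, `ℓ ∤ D`, on vector valued forms of level `N ∣ D`. -/
def TV {W : Type*} [AddCommGroup W] [Module ℂ W] [FiniteDimensional ℂ W]
    (σ : M2 →* Module.End ℂ W) (k : ℤ) {D : ℕ} (hND : N ∣ D) (ℓ : Pr D) :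
    Module.End ℂ (vForms N σ k) :=
  (TF N ℓ.1 ℓ.2.1 (fun h => ℓ.2.2 (h.trans hND))).opF σ k

end main

end Fermat.Agent.H24H
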