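import Mathlib
import Fermat.Agent.H24ES.Coeff
import Fermat.Agent.TC.Present

/-!
# Lifting cocycles of `Γ₀(N)`

If no conjugate of `S` lies in `Γ₀(N)` and `3` is invertible, then cocycles with values in a
quotient of `V` lift to cocycles with values in `V`.
-/

set_option autoImplicit false

noncomputable section

namespace Fermat.Agent.H24H

open CongruenceSubgroup Matrix Fermat.Agent.H24ES ModularGroup
open Fermat.Agent.TC (U S_sq U_cube exists_cocycle)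
open scoped MatrixGroups

variable {N : ℕ}

/-! ### Right cosets -/

/-- the space of right cosets -/
abbrev RC (N : ℕ) : Type := Quotient (QuotientGroup.rightRel (Gamma0 N))

/-- the right coset of an element -/
def rc (x : SL(2, ℤ)) : RC N := Quotient.mk _ x

lemma rc_eq_iff {x y : SL(2, ℤ)} : (rc x : RC N) = rc y ↔ y * x⁻¹ ∈ Gamma0 N := by
  unfold rc
  rw [Quotient.eq]
  exact QuotientGroup.rightRel_apply

lemma rc_mul (γ : Gamma0 N) (x : SL(2, ℤ)) : (rc ((γ : SL(2, ℤ)) * x) : RC N) = rc x := by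
  rw [rc_eq_iff, _root_.mul_inv_rev, ← mul_assoc, mul_inv_cancel, one_mul]
  exact inv_mem γ.2

/-- chosen representatives -/
def rep (x : SL(2, ℤ)) (N : ℕ) : SL(2, ℤ) := (rc x : RC N).out

lemma rep_mul (γ : Gamma0 N) (x : SL(2, ℤ)) : rep ((γ : SL(2, ℤ)) * x) N = rep x N := by
  unfold rep
  rw [rc_mul]

lemma rep_mem (x : SL(2, ℤ)) : x * (rep x N)⁻¹ ∈ Gamma0 N := by
  rw [← rc_eq_iff (N := N)]
  exact Quotient.out_eq _

/-- the `Γ₀(N)`-part -/
def gpt (x : SL(2, ℤ)) : Gamma0 N := ⟨x * (rep x N)⁻¹, rep_mem x⟩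

lemma gpt_mul (γ : Gamma0 N) (x : SL(2, ℤ)) :
    gpt ((γ : SL(2, ℤ)) * x) = γ * (gpt x : Gamma0 N) := by
  apply Subtype.ext
  show (γ : SL(2, ℤ)) * x * (rep ((γ : SL(2, ℤ)) * x) N)⁻¹ = γ * (x * (rep x N)⁻¹)
  rw [rep_mul, mul_assoc]

/-! ### Coinduced modules -/

section coind

variable {R V : Type*} [CommRing R] [AddCommGroup V] [Module R V] (N)
  (ρ : M2 →* Module.End R V)

/-- the coinduced module -/
def Coi : AddSubgroup (SL(2, ℤ) → V) where
  carrier := {φ | ∀ (γ : Gamma0 N) (x : SL(2, ℤ)), φ ((γ : SL(2, ℤ)) * x) = ρ (gm γ) (φ x)}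
  add_mem' := fun {φ ψ} h1 h2 γ x => by simp only [Pi.add_apply, h1 γ x, h2 γ x, map_add]
  zero_mem' := fun γ x => by simp
  neg_mem' := fun {φ} h γ x => by simp only [Pi.neg_apply, h γ x, map_neg]

/-- the action of `SL₂(ℤ)` by right translations -/
def coiAct : SL(2, ℤ) →* AddMonoid.End (Coi N ρ) where
  toFun h :=
    { toFun := fun φ => ⟨fun x => (φ : SL(2, ℤ) → V) (x * h), fun γ x => by
        show (φ : SL(2, ℤ) → V) ((γ : SL(2, ℤ)) * x * h) = _
        rw [mul_assoc]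
        exact φ.2 γ _⟩
      map_zero' := rfl
      map_add' := fun φ ψ => rfl }
  map_one' := by
    apply AddMonoidHom.ext
    intro φ
    apply Subtype.ext
    funext x
    show (φ : SL(2, ℤ) → V) (x * 1) = (φ : SL(2, ℤ) → V) x
    rw [mul_one]
  map_mul' g h := by
    apply AddMonoidHom.ext
    intro φ
    apply Subtype.ext
    funext x
    show (φ : SL(2, ℤ) → V) (x * (g * h)) = (φ : SL(2, ℤ) → V) (x * g * h)
    rw [mul_assoc]

variable {N ρ}

@[simp] lemma coiAct_apply (h : SL(2, ℤ)) (φ : Coi N ρ) (x : SL(2, ℤ)) :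
    (coiAct N ρ h φ : SL(2, ℤ) → V) x = (φ : SL(2, ℤ) → V) (x * h) := rfl

lemma coi_spec (φ : Coi N ρ) (γ : Gamma0 N) (x : SL(2, ℤ)) :
    (φ : SL(2, ℤ) → V) ((γ : SL(2, ℤ)) * x) = ρ (gm γ) ((φ : SL(2, ℤ) → V) x) := φ.2 γ x

/-- `-1` as an element of `Γ₀(N)` -/
def neg1 (N : ℕ) : Gamma0 N := ⟨-1, by
  rw [Gamma0_mem]; simp⟩

lemma gm_neg1 : gm (neg1 N) = -1 := by
  show ((-1 : SL(2, ℤ)) : Matrix (Fin 2) (Fin 2) ℤ) = -1
  simp

lemma coi_neg (hρ : ρ (-1) = 1) (φ : Coi N ρ) (x : SL(2, ℤ)) :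
    (φ : SL(2, ℤ) → V) (-x) = (φ : SL(2, ℤ) → V) x := by
  have h := coi_spec φ (neg1 N) x
  rw [gm_neg1, hρ] at h
  have e : ((neg1 N : Gamma0 N) : SL(2, ℤ)) * x = -x := by
    show (-1 : SL(2, ℤ)) * x = -x
    rw [neg_one_mul]
  rw [e] at h
  exact h

lemma coiAct_neg_one (hρ : ρ (-1) = 1) : coiAct N ρ (-1) = 1 := by
  apply AddMonoidHom.ext
  intro φ
  apply Subtype.ext
  funext x
  show (φ : SL(2, ℤ) → V) (x * -1) = (φ : SL(2, ℤ) → V) x
  rw [mul_neg_one, coi_neg hρ]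

end coind

/-! ### The lifting theorem -/

section lift

variable {R V : Type*} [CommRing R] [AddCommGroup V] [Module R V] {ρ : M2 →* Module.End R V}
variable {R'' V'' : Type*} [CommRing R''] [AddCommGroup V''] [Module R'' V'']
  {ρ'' : M2 →* Module.End R'' V''}

/-- lifting of coinduced functions -/
lemma exists_coi_lift (g : V →+ V'') (hg : ∀ (A : M2) (v : V), g (ρ A v) = ρ'' A (g v))
    (hsurj : Function.Surjective g) (s : Coi N ρ'') :
    ∃ y : Coi N ρ, ∀ x, g ((y : SL(2, ℤ) → V) x) = (s : SL(2, ℤ) → V'') x := by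
  refine ⟨⟨fun x => ρ (gm (gpt x : Gamma0 N))
    (Function.surjInv hsurj ((s : SL(2, ℤ) → V'') (rep x N))), fun γ x => ?_⟩, fun x => ?_⟩
  · show ρ (gm (gpt ((γ : SL(2, ℤ)) * x) : Gamma0 N)) _ = _
    rw [gpt_mul, rep_mul, rho_gm_mul]
  · show g (ρ (gm (gpt x : Gamma0 N)) _) = _
    rw [hg, Function.surjInv_eq hsurj, ← coi_spec]
    have e : ((gpt x : Gamma0 N) : SL(2, ℤ)) * rep x N = x := by
      show x * (rep x N)⁻¹ * rep x N = x
      group
    rw [e]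

/-- the sign function on cosets -/
lemma exists_sign (hS : ∀ x : SL(2, ℤ), x * S * x⁻¹ ∉ Gamma0 N) :
    ∃ ε : SL(2, ℤ) → Prop, (∀ (γ : Gamma0 N) (x : SL(2, ℤ)), ε ((γ : SL(2, ℤ)) * x) ↔ ε x) ∧
      ∀ x, ε (x * S) ↔ ¬ ε x := by
  classical
  let _ : LinearOrder (RC N) := linearOrderOfSTO (WellOrderingRel (α := RC N))
  have hne : ∀ x : SL(2, ℤ), (rc x : RC N) ≠ rc (x * S) := by
    intro x h
    rw [rc_eq_iff] at h
    exact hS x h
  refine ⟨fun x => (rc x : RC N) < rc (x * S), fun γ x => ?_, fun x => ?_⟩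
  · show (rc ((γ : SL(2, ℤ)) * x) : RC N) < rc ((γ : SL(2, ℤ)) * x * S) ↔ _
    rw [mul_assoc, rc_mul, rc_mul]
  · show (rc (x * S) : RC N) < rc (x * S * S) ↔ _
    have e : (rc (x * S * S) : RC N) = rc x := by
      have h1 : x * S * S = ((neg1 N : Gamma0 N) : SL(2, ℤ)) * x := by
        show x * S * S = (-1 : SL(2, ℤ)) * x
        rw [mul_assoc, ← pow_two, S_sq, mul_neg_one, neg_one_mul]
      rw [h1, rc_mul]
    rw [e, not_lt]
    exact ⟨le_of_lt, fun h => lt_of_le_of_ne h (hne x).symm⟩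

/-- **LIFTING.** -/
theorem exists_lift_Z1 (hρ : ρ (-1) = 1) (h3 : ∃ t : R, 3 * t = 1)
    (hS : ∀ x : SL(2, ℤ), x * S * x⁻¹ ∉ Gamma0 N)
    (g : V →+ V'') (hg : ∀ (A : M2) (v : V), g (ρ A v) = ρ'' A (g v))
    (hker : ∀ (c : R) (v : V), g v = 0 → g (c • v) = 0)
    (hsurj : Function.Surjective g) {u'' : Gamma0 N → V''} (hu'' : u'' ∈ Z1 N ρ'') :
    ∃ u ∈ Z1 N ρ, ∀ γ, g (u γ) = u'' γ := by
  classical
  have hρ'' : ρ'' (-1) = 1 := by
    apply LinearMap.ext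
    intro v
    obtain ⟨w, rfl⟩ := hsurj v
    rw [← hg, hρ]; rfl
  -- the function `f`
  let f : SL(2, ℤ) → V'' := fun x => u'' (gpt x : Gamma0 N)
  have hf : ∀ (γ : Gamma0 N) x, f ((γ : SL(2, ℤ)) * x) = u'' γ + ρ'' (gm γ) (f x) := by
    intro γ x
    show u'' (gpt ((γ : SL(2, ℤ)) * x)) = _
    rw [gpt_mul, hu''.1]
  have hfneg : ∀ x, f (-x) = f x := by
    intro x
    have := hf (neg1 N) x
    rw [hu''.2 _ gm_neg1, gm_neg1, hρ'', zero_add] at this
    have e : ((neg1 N : Gamma0 N) : SL(2, ℤ)) * x = -x := by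
      show (-1 : SL(2, ℤ)) * x = -x
      rw [neg_one_mul]
    rw [e] at this
    exact this
  -- the cocycle `c''`
  let c'' : SL(2, ℤ) → Coi N ρ'' := fun h => ⟨fun x => f (x * h) - f x, fun γ x => by
    show f ((γ : SL(2, ℤ)) * x * h) - f ((γ : SL(2, ℤ)) * x) = _
    rw [mul_assoc, hf, hf, map_sub]; abel⟩
  have hc''apply : ∀ h x, (c'' h : SL(2, ℤ) → V'') x = f (x * h) - f x := fun _ _ => rfl
  -- lifting the value at `S`
  obtain ⟨y, hy⟩ := exists_coi_lift (N := N) g hg hsurj (c'' S)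
  obtain ⟨ε, hε1, hε2⟩ := exists_sign hS
  let s : Coi N ρ := ⟨fun x => if ε x then (y : SL(2, ℤ) → V) x else
      -(y : SL(2, ℤ) → V) (x * S), fun γ x => by
    show (if ε ((γ : SL(2, ℤ)) * x) then (y : SL(2, ℤ) → V) ((γ : SL(2, ℤ)) * x) else
      -(y : SL(2, ℤ) → V) ((γ : SL(2, ℤ)) * x * S)) = _
    by_cases hx : ε x
    · rw [if_pos ((hε1 γ x).mpr hx)]
      simp only [if_pos hx]
      exact coi_spec y γ x
    · rw [if_neg (fun h => hx ((hε1 γ x).mp h)), mul_assoc, coi_spec]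
      simp only [if_neg hx, map_neg]⟩
  have hsapply : ∀ x, (s : SL(2, ℤ) → V) x = if ε x then (y : SL(2, ℤ) → V) x else
      -(y : SL(2, ℤ) → V) (x * S) := fun _ => rfl
  have hxSS : ∀ x : SL(2, ℤ), x * S * S = -x := by
    intro x
    rw [mul_assoc, ← pow_two, S_sq, mul_neg_one]
  have hsS : s + coiAct N ρ S s = 0 := by
    apply Subtype.ext
    funext x
    show (s : SL(2, ℤ) → V) x + (s : SL(2, ℤ) → V) (x * S) = 0
    rw [hsapply, hsapply]
    by_cases hx : ε x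
    · rw [if_pos hx, if_neg (fun h => (hε2 x).mp h hx), hxSS, coi_neg hρ, add_neg_cancel]
    · rw [if_neg hx, if_pos ((hε2 x).mpr hx), neg_add_cancel]
  have hgs : ∀ x, g ((s : SL(2, ℤ) → V) x) = (c'' S : SL(2, ℤ) → V'') x := by
    intro x
    rw [hsapply]
    by_cases hx : ε x
    · rw [if_pos hx, hy]
    · rw [if_neg hx, map_neg, hy, hc''apply, hc''apply, hxSS, hfneg]
      abel
  -- lifting the value at `U`
  obtain ⟨t0, ht0⟩ := exists_coi_lift (N := N) g hg hsurj (c'' U)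
  obtain ⟨th, hth⟩ := h3
  have hxUUU : ∀ x : SL(2, ℤ), x * U * U * U = -x := by
    intro x
    have : x * U * U * U = x * U ^ 3 := by rw [pow_succ, pow_two, mul_assoc, mul_assoc, mul_assoc]
    rw [this, U_cube, mul_neg_one]
  let t : Coi N ρ := ⟨fun x => (t0 : SL(2, ℤ) → V) x - th • ((t0 : SL(2, ℤ) → V) x +
      (t0 : SL(2, ℤ) → V) (x * U) + (t0 : SL(2, ℤ) → V) (x * U * U)), fun γ x => by
    show (t0 : SL(2, ℤ) → V) ((γ : SL(2, ℤ)) * x) - th • ((t0 : SL(2, ℤ) → V) ((γ : SL(2, ℤ)) * x)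
      + (t0 : SL(2, ℤ) → V) ((γ : SL(2, ℤ)) * x * U) +
      (t0 : SL(2, ℤ) → V) ((γ : SL(2, ℤ)) * x * U * U)) = _
    simp only [mul_assoc, coi_spec, map_sub, map_smul, map_add]⟩
  have htapply : ∀ x, (t : SL(2, ℤ) → V) x = (t0 : SL(2, ℤ) → V) x -
      th • ((t0 : SL(2, ℤ) → V) x + (t0 : SL(2, ℤ) → V) (x * U) +
        (t0 : SL(2, ℤ) → V) (x * U * U)) := fun _ => rfl
  have h3v : ∀ v : V, th • v + th • v + th • v = v := by
    intro v
    rw [← add_smul, ← add_smul, show th + th + th = 3 * th by ring, hth, one_smul]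
  have htU : t + coiAct N ρ U t + coiAct N ρ U (coiAct N ρ U t) = 0 := by
    apply Subtype.ext
    funext x
    show (t : SL(2, ℤ) → V) x + (t : SL(2, ℤ) → V) (x * U) + (t : SL(2, ℤ) → V) (x * U * U) = 0
    have e1 : (t0 : SL(2, ℤ) → V) (x * U * U * U) = (t0 : SL(2, ℤ) → V) x := by
      rw [hxUUU, coi_neg hρ]
    have e2 : (t0 : SL(2, ℤ) → V) (x * U * U * U * U) = (t0 : SL(2, ℤ) → V) (x * U) := by
      rw [hxUUU (x * U), coi_neg hρ]
    rw [htapply, htapply, htapply, e1, e2]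
    have h4 := h3v ((t0 : SL(2, ℤ) → V) x + (t0 : SL(2, ℤ) → V) (x * U) +
        (t0 : SL(2, ℤ) → V) (x * U * U))
    have e3 : (t0 : SL(2, ℤ) → V) (x * U) + (t0 : SL(2, ℤ) → V) (x * U * U) +
        (t0 : SL(2, ℤ) → V) x = (t0 : SL(2, ℤ) → V) x + (t0 : SL(2, ℤ) → V) (x * U) +
        (t0 : SL(2, ℤ) → V) (x * U * U) := by abel
    have e4 : (t0 : SL(2, ℤ) → V) (x * U * U) + (t0 : SL(2, ℤ) → V) x +
        (t0 : SL(2, ℤ) → V) (x * U) = (t0 : SL(2, ℤ) → V) x + (t0 : SL(2, ℤ) → V) (x * U) +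
        (t0 : SL(2, ℤ) → V) (x * U * U) := by abel
    rw [e3, e4]
    generalize hA : (t0 : SL(2, ℤ) → V) x + (t0 : SL(2, ℤ) → V) (x * U) +
        (t0 : SL(2, ℤ) → V) (x * U * U) = A at h4 ⊢
    have h5 : (t0 : SL(2, ℤ) → V) x - th • A + ((t0 : SL(2, ℤ) → V) (x * U) - th • A) +
        ((t0 : SL(2, ℤ) → V) (x * U * U) - th • A) = A - (th • A + th • A + th • A) := by
      rw [← hA]; abel
    rw [h5, h4, sub_self]
  -- a projection formula for `c''` at `U`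
  have hgt : ∀ x, g ((t : SL(2, ℤ) → V) x) = (c'' U : SL(2, ℤ) → V'') x := by
    intro x
    -- `g (th • v)` : write `A = 3 th A`
    have h6 : g ((t0 : SL(2, ℤ) → V) x + (t0 : SL(2, ℤ) → V) (x * U) +
        (t0 : SL(2, ℤ) → V) (x * U * U)) = 0 := by
      rw [map_add, map_add, ht0, ht0, ht0, hc''apply, hc''apply, hc''apply, hxUUU, hfneg]
      abel
    rw [htapply, map_sub, hker th _ h6, sub_zero, ht0]
  -- the cocycle upstairs
  obtain ⟨c, hc, hcS, hcU⟩ := exists_cocycle (coiAct N ρ) (coiAct_neg_one hρ) s t hsS htU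
  have hc''mul : ∀ h h' x, (c'' (h * h') : SL(2, ℤ) → V'') x =
      (c'' h : SL(2, ℤ) → V'') x + (c'' h' : SL(2, ℤ) → V'') (x * h) := by
    intro h h' x
    rw [hc''apply, hc''apply, hc''apply, mul_assoc]
    abel
  have hcmul : ∀ h h' x, (c (h * h') : SL(2, ℤ) → V) x =
      (c h : SL(2, ℤ) → V) x + (c h' : SL(2, ℤ) → V) (x * h) := by
    intro h h' x
    rw [hc]
    rfl
  have hc1 : ∀ x, (c 1 : SL(2, ℤ) → V) x = 0 := by
    intro x
    have := hcmul 1 1 x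
    rw [mul_one, mul_one] at this
    simpa using this
  -- comparison
  let H : Subgroup SL(2, ℤ) :=
    { carrier := {h | ∀ x, g ((c h : SL(2, ℤ) → V) x) = (c'' h : SL(2, ℤ) → V'') x}
      one_mem' := fun x => by rw [hc1, map_zero, hc''apply, mul_one, sub_self]
      mul_mem' := fun {a b} ha hb x => by
        rw [hcmul, map_add, hc''mul, ha x, hb (x * a)]
      inv_mem' := fun {a} ha x => by
        have h1 := hcmul a⁻¹ a x
        rw [inv_mul_cancel, hc1] at h1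
        have h2 := hc''mul a⁻¹ a x
        rw [inv_mul_cancel, hc''apply 1 x, mul_one, sub_self] at h2
        have h3 : (c a⁻¹ : SL(2, ℤ) → V) x = -(c a : SL(2, ℤ) → V) (x * a⁻¹) :=
          eq_neg_of_add_eq_zero_left h1.symm
        have h4 : (c'' a⁻¹ : SL(2, ℤ) → V'') x = -(c'' a : SL(2, ℤ) → V'') (x * a⁻¹) :=
          eq_neg_of_add_eq_zero_left h2.symm
        rw [h3, h4, map_neg, ha] }
  have hHtop : H = ⊤ := by
    rw [eq_top_iff, ← SpecialLinearGroup.SL2Z_generators, Subgroup.closure_le]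
    have hSH : S ∈ H := fun x => by rw [hcS]; exact hgs x
    have hUH : U ∈ H := fun x => by rw [hcU]; exact hgt x
    rintro x (rfl | rfl)
    · exact hSH
    · have h1 : T = S⁻¹ * U := by rw [U]; group
      show T ∈ H
      rw [h1]
      exact mul_mem (inv_mem hSH) hUH
  have hH : ∀ h x, g ((c h : SL(2, ℤ) → V) x) = (c'' h : SL(2, ℤ) → V'') x := by
    intro h
    have : h ∈ H := by rw [hHtop]; trivial
    exact this
  -- the cocycle on `Γ₀(N)`
  have hcneg : ∀ x, (c (-1) : SL(2, ℤ) → V) x = 0 := by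
    intro x
    have h1 := hcmul S S x
    rw [← pow_two, S_sq, hcS] at h1
    rw [h1]
    exact congrFun (congrArg Subtype.val hsS) x
  have hu1 : (fun γ : Gamma0 N => (c (γ : SL(2, ℤ)) : SL(2, ℤ) → V) 1) ∈ Z1 N ρ := by
    refine ⟨fun γ δ => ?_, fun γ hγ => ?_⟩
    · show (c ((γ : SL(2, ℤ)) * δ) : SL(2, ℤ) → V) 1 = _
      rw [hcmul, one_mul]
      congr 1
      have := coi_spec (c (δ : SL(2, ℤ))) γ 1
      rwa [mul_one] at this
    · have : γ = neg1 N := gm_injective (by rw [hγ, gm_neg1])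
      subst this
      exact hcneg 1
  obtain ⟨w, hw⟩ := hsurj (f 1)
  refine ⟨_, (Z1 N ρ).sub_mem hu1 (del_mem_Z1 hρ w), fun γ => ?_⟩
  show g ((c (γ : SL(2, ℤ)) : SL(2, ℤ) → V) 1 - (ρ (gm γ) w - w)) = _
  rw [map_sub, map_sub, hH, hg, hw, hc''apply, one_mul]
  have := hf γ 1
  rw [mul_one] at this
  rw [this]; abel

end lift

end Fermat.Agent.H24H
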