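import Mathlib
import Fermat.Agent.H24H.Gpart
import Fermat.Agent.H24H.Comm
import Fermat.Agent.H24H.Lift

/-!
# Exactness of the localised cohomology of `Γ₀(N)` in characteristic two
-/

set_option autoImplicit false

noncomputable section

namespace Fermat.Agent.H24H

open CongruenceSubgroup Matrix Fermat.Agent.H24ES ModularGroup Module
open Fermat.Agent.TC (Pr)
open scoped MatrixGroups

/-- The part is preserved by surjections whose kernel is killed by an operator which is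
invertible on the part. -/
theorem finrank_gpart_of_surjective {K M M'' I : Type*} [Field K] [IsAlgClosed K]
    [AddCommGroup M] [Module K M] [AddCommGroup M''] [Module K M''] [FiniteDimensional K M]
    {T : I → Module.End K M} {T'' : I → Module.End K M''}
    (hT : ∀ i j, Commute (T i) (T j)) (hT'' : ∀ i j, Commute (T'' i) (T'' j))
    (g : M →ₗ[K] M'') (hg : ∀ i x, g (T i x) = T'' i (g x)) (hsurj : Function.Surjective g)
    (Λ : Set (I → K)) (i₀ : I) (hΛ : ∀ χ ∈ Λ, χ i₀ ≠ 0) (h0 : ∀ x, g x = 0 → T i₀ x = 0) :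
    finrank K (gpart T Λ) = finrank K (gpart T'' Λ) := by
  have h1 := map_gpart hT hT'' g hg Λ
  rw [LinearMap.range_eq_top.mpr hsurj, top_inf_eq] at h1
  let g' : gpart T Λ →ₗ[K] M'' := g ∘ₗ (gpart T Λ).subtype
  have hinj : Function.Injective g' := by
    rw [injective_iff_map_eq_zero]
    rintro ⟨x, hx⟩ h
    exact Subtype.ext (eq_zero_of_gpart i₀ hΛ hx (h0 x h))
  rw [← h1, ← LinearMap.finrank_range_of_inj hinj, LinearMap.range_comp, Submodule.range_subtype]

/-- the representation only depends on the matrix modulo `c` -/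
def Cong {R V : Type*} [CommRing R] [AddCommGroup V] [Module R V] (c : ℕ)
    (ρ : M2 →* Module.End R V) : Prop := ∀ A B : M2, redM c A = redM c B → ρ A = ρ B

lemma cong_ofGL {R V : Type*} [CommRing R] [AddCommGroup V] [Module R V] {f : ℕ}
    (r : GL (Fin 2) (ZMod f) →* Module.End R V) : Cong f (ofGL f r) :=
  fun _ _ h => ofGL_congr r h

lemma Cong.mono {R V : Type*} [CommRing R] [AddCommGroup V] [Module R V] {c c' : ℕ}
    (h : c ∣ c') {ρ : M2 →* Module.End R V} (hρ : Cong c ρ) : Cong c' ρ := by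
  intro A B hAB
  apply hρ
  have h1 : ∀ C : M2, redM c C = (ZMod.castHom h (ZMod c)).mapMatrix (redM c' C) := by
    intro C
    ext i j
    show ((C i j : ℤ) : ZMod c) = ZMod.castHom h (ZMod c) ((C i j : ℤ) : ZMod c')
    rw [map_intCast]
  rw [h1, h1, hAB]

section H0

variable {R V : Type*} [CommRing R] [AddCommGroup V] [Module R V] {N c : ℕ}
  {ρ : M2 →* Module.End R V}

/-- translations -/
def trG (N : ℕ) (j : ℤ) : Gamma0 N :=
  mkG !![1, j; 0, 1] (by simp [Matrix.det_fin_two_of]) (by simp)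

lemma exists_gm_adj (hρ : Cong c ρ) {ℓ : ℕ} (hℓ : (ℓ : ZMod c) = 1) (i : Option (Fin ℓ)) :
    ∃ γ : Gamma0 N, ρ (tα ℓ i).adjugate = ρ (gm γ) := by
  have hℓ' : (((ℓ : ℤ)) : ZMod c) = 1 := by push_cast; exact hℓ
  cases i with
  | none =>
    refine ⟨1, hρ _ _ ?_⟩
    rw [tα_none, adj_diM, gm_one, map_one]
    ext a b
    fin_cases a <;> fin_cases b
    · show (((1 : ℤ)) : ZMod c) = 1
      simp
    · show (((0 : ℤ)) : ZMod c) = 0
      simp
    · show (((0 : ℤ)) : ZMod c) = 0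
      simp
    · exact hℓ'
  | some j =>
    refine ⟨trG N (-(j : ℕ)), hρ _ _ ?_⟩
    rw [tα_some, adj_upM, trG, gm_mkG]
    ext a b
    fin_cases a <;> fin_cases b
    · show (((ℓ : ℤ)) : ZMod c) = (((1 : ℤ)) : ZMod c)
      rw [hℓ']; simp
    · rfl
    · rfl
    · rfl

/-- In degree zero `T_ℓ` acts as multiplication by `ℓ + 1`, for `ℓ ≡ 1 mod c`. -/
lemma op0_sub_mem (hρ : Cong c ρ) {ℓ : ℕ} (hp : ℓ.Prime) (hℓN : ¬ ℓ ∣ N)
    (hℓ : (ℓ : ZMod c) = 1) (W : AddSubgroup V) (w : V)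
    (hw : ∀ γ : Gamma0 N, ρ (gm γ) w - w ∈ W) :
    (TF N ℓ hp hℓN).op0 ρ w - ((ℓ : R) + 1) • w ∈ W := by
  have h1 : ((ℓ : R) + 1) • w = ∑ _i : Option (Fin ℓ), w := by
    rw [Finset.sum_const, Finset.card_univ, Fintype.card_option, Fintype.card_fin,
      ← Nat.cast_smul_eq_nsmul R, Nat.cast_add, Nat.cast_one]
  rw [HFam.op0_apply, h1, ← Finset.sum_sub_distrib]
  refine AddSubgroup.sum_mem _ fun i _ => ?_
  obtain ⟨γ, hγ⟩ := exists_gm_adj (N := N) hρ hℓ i
  rw [TF_α, hγ]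
  exact hw γ

end H0

section exact

variable {K : Type*} [Field K] {V' V V'' : Type*} [AddCommGroup V'] [Module K V']
  [AddCommGroup V] [Module K V] [AddCommGroup V''] [Module K V''] {N c : ℕ}
  {ρ' : M2 →* Module.End K V'} {ρ : M2 →* Module.End K V} {ρ'' : M2 →* Module.End K V''}

/-- the condition on the level: no elliptic elements of order two -/
def NoS (N : ℕ) : Prop := ∀ x : SL(2, ℤ), x * S * x⁻¹ ∉ Gamma0 N

lemma mapH_surjective (hρ : ρ (-1) = 1) (h3 : ∃ t : K, 3 * t = 1) (hS : NoS N)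
    (g : V →ₗ[K] V'') (hg : ∀ (A : M2) (v : V), g (ρ A v) = ρ'' A (g v))
    (hsurj : Function.Surjective g) : Function.Surjective (mapH N g hg) := by
  intro x
  obtain ⟨u'', rfl⟩ := Submodule.Quotient.mk_surjective _ x
  obtain ⟨u, hu, hgu⟩ := exists_lift_Z1 hρ h3 hS g.toAddMonoidHom hg
    (fun c v hv => by
      have hv' : g v = 0 := hv
      show g (c • v) = 0
      rw [map_smul, hv', smul_zero]) hsurj u''.2
  refine ⟨Submodule.Quotient.mk ⟨u, hu⟩, ?_⟩
  rw [mapH_mk]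
  congr 1
  apply Subtype.ext
  funext γ
  exact hgu γ

lemma mapH_exact (f : V' →ₗ[K] V) (hf : ∀ (A : M2) (v : V'), f (ρ' A v) = ρ A (f v))
    (g : V →ₗ[K] V'') (hg : ∀ (A : M2) (v : V), g (ρ A v) = ρ'' A (g v))
    (hinj : Function.Injective f) (hsurj : Function.Surjective g)
    (hex : LinearMap.range f = LinearMap.ker g) (hρ : ρ (-1) = 1) :
    LinearMap.range (mapH N f hf) = LinearMap.ker (mapH N g hg) := by
  have hgf : ∀ v, g (f v) = 0 := fun v => by
    have : f v ∈ LinearMap.ker g := by rw [← hex]; exact ⟨v, rfl⟩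
    exact this
  apply le_antisymm
  · rintro _ ⟨x, rfl⟩
    obtain ⟨u, rfl⟩ := Submodule.Quotient.mk_surjective _ x
    rw [LinearMap.mem_ker, mapH_mk, mapH_mk]
    have : mapZ N g hg (mapZ N f hf u) = 0 := by
      apply Subtype.ext
      funext γ
      exact hgf _
    rw [this]
    rfl
  · intro x hx
    obtain ⟨u, rfl⟩ := Submodule.Quotient.mk_surjective _ x
    rw [LinearMap.mem_ker, mapH_mk, Submodule.Quotient.mk_eq_zero, Submodule.mem_comap] at hx
    obtain ⟨w'', hw''⟩ := hx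
    obtain ⟨w, rfl⟩ := hsurj w''
    -- `u - del w` has values in the range of `f`
    let u₁ : Z1 N ρ := u - ⟨del N ρ w, del_mem_Z1 hρ w⟩
    have hu₁ : ∀ γ, g (u₁.1 γ) = 0 := by
      intro γ
      have h1 := congrFun hw'' γ
      show g (u.1 γ - (ρ (gm γ) w - w)) = 0
      rw [map_sub, map_sub, hg]
      have h2 : (del N ρ'' (g w)) γ = g (u.1 γ) := h1
      rw [del_apply] at h2
      rw [← h2, sub_self]
    have hu₁' : ∀ γ, ∃ v', f v' = u₁.1 γ := fun γ => by
      have : u₁.1 γ ∈ LinearMap.range f := by rw [hex]; exact hu₁ γ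
      exact this
    choose v' hv' using hu₁'
    have hZ : v' ∈ Z1 N ρ' := by
      refine ⟨fun γ δ => hinj ?_, fun γ hγ => hinj ?_⟩
      · rw [hv', map_add, hv', hf, hv']
        exact u₁.2.1 γ δ
      · rw [hv', map_zero]
        exact u₁.2.2 γ hγ
    refine ⟨Submodule.Quotient.mk ⟨v', hZ⟩, ?_⟩
    rw [mapH_mk]
    rw [Submodule.Quotient.eq, Submodule.mem_comap]
    refine ⟨-w, ?_⟩
    funext γ
    show ρ (gm γ) (-w) - -w = f (v' γ) - u.1 γ
    rw [hv', map_neg]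
    show _ = u.1 γ - (ρ (gm γ) w - w) - u.1 γ
    abel

/-- the kernel of `H¹(V') → H¹(V)` is killed by `T_ℓ`, `ℓ ≡ 1 mod c` odd, in characteristic
two -/
lemma opH_eq_zero_of_mapH (h2 : (2 : K) = 0) (hcong : Cong c ρ)
    (f : V' →ₗ[K] V) (hf : ∀ (A : M2) (v : V'), f (ρ' A v) = ρ A (f v))
    (hinj : Function.Injective f) {ℓ : ℕ} (hp : ℓ.Prime) (hℓN : ¬ ℓ ∣ N)
    (hℓ : (ℓ : ZMod c) = 1) (hodd : ℓ ≠ 2) {x : H1 N ρ'} (hx : mapH N f hf x = 0) :
    (TF N ℓ hp hℓN).opH ρ' x = 0 := by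
  obtain ⟨u, rfl⟩ := Submodule.Quotient.mk_surjective _ x
  rw [mapH_mk, Submodule.Quotient.mk_eq_zero, Submodule.mem_comap] at hx
  obtain ⟨w, hw⟩ := hx
  have hw' : ∀ γ, f (u.1 γ) = ρ (gm γ) w - w := fun γ => (congrFun hw γ).symm
  have hmem := op0_sub_mem hcong hp hℓN hℓ (LinearMap.range f).toAddSubgroup w (fun γ => by
    rw [← hw' γ]; exact ⟨_, rfl⟩)
  have hℓ1 : (ℓ : K) + 1 = 0 := by
    obtain ⟨m, hm⟩ := hp.odd_of_ne_two hodd
    have : ((ℓ : ℕ) : K) = ((2 * m + 1 : ℕ) : K) := by rw [← hm]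
    rw [this]
    push_cast
    rw [h2]
    linear_combination h2
  rw [hℓ1, zero_smul, sub_zero] at hmem
  obtain ⟨v', hv'⟩ := hmem
  rw [HFam.opH_mk, Submodule.Quotient.mk_eq_zero, Submodule.mem_comap]
  refine ⟨v', ?_⟩
  funext γ
  apply hinj
  have e1 := congrFun ((TF N ℓ hp hℓN).op_del ρ w) γ
  rw [← hv'] at e1
  show f (ρ' (gm γ) v' - v') = f ((TF N ℓ hp hℓN).op ρ' u.1 γ)
  rw [map_sub, hf]
  rw [del_apply] at e1
  rw [← e1, HFam.op_apply, HFam.op_apply, map_sum]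
  refine Finset.sum_congr rfl fun i _ => ?_
  rw [hf, hw']
  rfl

/-- **Additivity of the localised cohomology** in characteristic two. -/
theorem finrank_gpart_H1 [IsAlgClosed K] [NeZero N] [FiniteDimensional K V']
    [FiniteDimensional K V] [FiniteDimensional K V'']
    (h2 : (2 : K) = 0) (hcong : Cong c ρ) (hρ : ρ (-1) = 1) (hS : NoS N)
    (f : V' →ₗ[K] V) (hf : ∀ (A : M2) (v : V'), f (ρ' A v) = ρ A (f v))
    (g : V →ₗ[K] V'') (hg : ∀ (A : M2) (v : V), g (ρ A v) = ρ'' A (g v))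
    (hinj : Function.Injective f) (hsurj : Function.Surjective g)
    (hex : LinearMap.range f = LinearMap.ker g)
    {D : ℕ} (hND : N ∣ D) (Λ : Set (Pr D → K)) (ℓ₁ : Pr D) (hℓ₁ : ((ℓ₁ : ℕ) : ZMod c) = 1)
    (hodd : (ℓ₁ : ℕ) ≠ 2) (hΛ : ∀ χ ∈ Λ, χ ℓ₁ ≠ 0) :
    finrank K (gpart (TH ρ hND) Λ) =
      finrank K (gpart (TH ρ' hND) Λ) + finrank K (gpart (TH ρ'' hND) Λ) := by
  have h3 : ∃ t : K, 3 * t = 1 := ⟨1, by linear_combination h2⟩
  exact finrank_gpart_exact' (TH_comm ρ hND) (TH_comm ρ' hND) (TH_comm ρ'' hND)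
    (mapH N f hf) (mapH N g hg) (fun i x => (HFam.opH_mapH _ f hf x).symm)
    (fun i x => (HFam.opH_mapH _ g hg x).symm) (mapH_surjective hρ h3 hS g hg hsurj)
    (mapH_exact f hf g hg hinj hsurj hex hρ) Λ ℓ₁ hΛ
    (fun x hx => opH_eq_zero_of_mapH h2 hcong f hf hinj ℓ₁.2.1 _ hℓ₁ hodd hx)

/-- invariance under equivariant isomorphisms of the coefficients -/
theorem finrank_gpart_H1_equiv (e : V ≃ₗ[K] V'') (he : ∀ (A : M2) (v : V), e (ρ A v) = ρ'' A (e v))
    [NeZero N] [FiniteDimensional K V] [FiniteDimensional K V'']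
    {D : ℕ} (hND : N ∣ D) (Λ : Set (Pr D → K)) :
    finrank K (gpart (TH ρ hND) Λ) = finrank K (gpart (TH ρ'' hND) Λ) := by
  have he' : ∀ (A : M2) (v : V''), e.symm (ρ'' A v) = ρ A (e.symm v) := fun A v => by
    rw [LinearEquiv.symm_apply_eq, he, LinearEquiv.apply_symm_apply]
  have hinj : ∀ x, mapH N e.symm.toLinearMap he' (mapH N e.toLinearMap he x) = x := by
    intro x
    obtain ⟨u, rfl⟩ := Submodule.Quotient.mk_surjective _ x
    rw [mapH_mk, mapH_mk]
    congr 1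
    apply Subtype.ext
    funext γ
    exact e.symm_apply_apply _
  have hinj' : ∀ x, mapH N e.toLinearMap he (mapH N e.symm.toLinearMap he' x) = x := by
    intro x
    obtain ⟨u, rfl⟩ := Submodule.Quotient.mk_surjective _ x
    rw [mapH_mk, mapH_mk]
    congr 1
    apply Subtype.ext
    funext γ
    exact e.apply_symm_apply _
  let E : H1 N ρ ≃ₗ[K] H1 N ρ'' :=
    { mapH N e.toLinearMap he with
      invFun := mapH N e.symm.toLinearMap he'
      left_inv := hinj
      right_inv := hinj' }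
  exact finrank_gpart_equiv E (fun i x => (HFam.opH_mapH _ e.toLinearMap he x).symm) Λ

end exact

end Fermat.Agent.H24H
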