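import Mathlib
import Fermat.Agent.H24H.Lattice
import Fermat.Agent.H24H.Exact
import Fermat.Agent.H11Q.Residue

/-!
# Comparison of the localised cohomology in characteristic zero and in characteristic two
-/

set_option autoImplicit false

noncomputable section

namespace Fermat.Agent.H24H

open CongruenceSubgroup Matrix Fermat.Agent.H24ES ModularGroup Module
open Fermat.Agent.TC (Pr)
open scoped MatrixGroups

section push

variable {R V : Type*} [CommRing R] [AddCommGroup V] [Module R V] {ρ : M2 →* Module.End R V}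
variable {R'' V'' : Type*} [CommRing R''] [AddCommGroup V''] [Module R'' V'']
  {ρ'' : M2 →* Module.End R'' V''} {N : ℕ}

lemma push_mem_Z1 (g : V →+ V'') (hg : ∀ (A : M2) (v : V), g (ρ A v) = ρ'' A (g v))
    {u : Gamma0 N → V} (hu : u ∈ Z1 N ρ) : (fun γ => g (u γ)) ∈ Z1 N ρ'' := by
  refine ⟨fun γ δ => ?_, fun γ hγ => ?_⟩
  · show g (u (γ * δ)) = g (u γ) + ρ'' (gm γ) (g (u δ))
    rw [hu.1, map_add, hg]
  · show g (u γ) = 0
    rw [hu.2 γ hγ, map_zero]

/-- push-forward of cocycles -/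
def pushZ (N : ℕ) (g : V →+ V'') (hg : ∀ (A : M2) (v : V), g (ρ A v) = ρ'' A (g v)) :
    Z1 N ρ →+ Z1 N ρ'' where
  toFun u := ⟨fun γ => g (u.1 γ), push_mem_Z1 g hg u.2⟩
  map_zero' := by
    apply Subtype.ext; funext γ
    exact map_zero g
  map_add' u v := by
    apply Subtype.ext; funext γ
    exact map_add g _ _

lemma coe_pushZ (g : V →+ V'') (hg : ∀ (A : M2) (v : V), g (ρ A v) = ρ'' A (g v))
    (u : Z1 N ρ) (γ : Gamma0 N) : (pushZ N g hg u : Gamma0 N → V'') γ = g (u.1 γ) := rfl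

lemma pushZ_opZ {ι : Type*} [Fintype ι] (F : HFam N ι) (g : V →+ V'')
    (hg : ∀ (A : M2) (v : V), g (ρ A v) = ρ'' A (g v)) (u : Z1 N ρ) :
    pushZ N g hg (F.opZ ρ u) = F.opZ ρ'' (pushZ N g hg u) := by
  apply Subtype.ext
  funext γ
  rw [coe_pushZ, F.coe_opZ, F.coe_opZ, F.op_apply, F.op_apply, map_sum]
  refine Finset.sum_congr rfl fun i _ => ?_
  rw [coe_pushZ, hg]

lemma push_del (g : V →+ V'') (hg : ∀ (A : M2) (v : V), g (ρ A v) = ρ'' A (g v)) (v : V)
    (γ : Gamma0 N) : g (del N ρ v γ) = del N ρ'' (g v) γ := by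
  rw [del_apply, del_apply, map_sub, hg]

end push

section compare

variable {K : Type*} [Field K] {A : ValuationSubring K} {J : Type*} {N : ℕ}

/-- inclusion of integral vectors -/
def cHom : (J → A) →+ (J → K) where
  toFun v j := (v j : K)
  map_zero' := rfl
  map_add' _ _ := rfl

/-- reduction of integral vectors -/
def rHom : (J → A) →+ (J → IsLocalRing.ResidueField A) where
  toFun v := redVec A v
  map_zero' := funext fun _ => map_zero _
  map_add' _ _ := funext fun _ => map_add _ _ _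

lemma cHom_injective : Function.Injective (cHom : (J → A) →+ (J → K)) := by
  intro v w h
  funext j
  exact Subtype.ext (congrFun h j)

lemma rHom_surjective :
    Function.Surjective (rHom : (J → A) →+ (J → IsLocalRing.ResidueField A)) := by
  intro v
  choose w hw using fun j => IsLocalRing.residue_surjective (R := A) (v j)
  exact ⟨w, funext hw⟩

lemma cHom_smul (c : A) (v : J → A) : cHom (c • v) = (c : K) • cHom v := rfl

lemma rHom_smul (c : A) (v : J → A) :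
    rHom (c • v) = IsLocalRing.residue A c • (rHom v : J → IsLocalRing.ResidueField A) :=
  funext fun j => map_mul (IsLocalRing.residue A) c (v j)

variable {ρA : M2 →* Module.End A (J → A)} {ρK : M2 →* Module.End K (J → K)}
  {ρk : M2 →* Module.End (IsLocalRing.ResidueField A) (J → IsLocalRing.ResidueField A)}
  (hK : ∀ (M : M2) (v : J → A), cHom (ρA M v) = ρK M (cHom v))
  (hk : ∀ (M : M2) (v : J → A), rHom (ρA M v) = ρk M (rHom v))

/-- the reductions of integral coboundaries -/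
def Itil : Submodule (IsLocalRing.ResidueField A) (Z1 N ρk) where
  carrier := {ub | ∃ u : Z1 N ρA, (∃ w : J → K, ∀ γ, cHom (u.1 γ) = del N ρK w γ) ∧
    pushZ N rHom hk u = ub}
  zero_mem' := ⟨0, ⟨0, fun γ => by
    rw [map_zero]
    exact map_zero _⟩, map_zero _⟩
  add_mem' := by
    rintro _ _ ⟨u, ⟨w, hw⟩, rfl⟩ ⟨u', ⟨w', hw'⟩, rfl⟩
    refine ⟨u + u', ⟨w + w', fun γ => ?_⟩, map_add _ _ _⟩
    rw [map_add]
    show cHom (u.1 γ + u'.1 γ) = _
    rw [map_add, hw, hw']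
    rfl
  smul_mem' := by
    rintro c _ ⟨u, ⟨w, hw⟩, rfl⟩
    obtain ⟨c, rfl⟩ := IsLocalRing.residue_surjective (R := A) c
    refine ⟨c • u, ⟨(c : K) • w, fun γ => ?_⟩, ?_⟩
    · rw [map_smul]
      show cHom (c • u.1 γ) = _
      rw [cHom_smul, hw]
      rfl
    · apply Subtype.ext
      funext γ
      exact rHom_smul c (u.1 γ)

variable (ρK) in
lemma mem_Itil {ub : Z1 N ρk} : ub ∈ Itil (ρK := ρK) (N := N) hk ↔
    ∃ u : Z1 N ρA, (∃ w : J → K, ∀ γ, cHom (u.1 γ) = del N ρK w γ) ∧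
    pushZ N rHom hk u = ub := Iff.rfl

include hK in
lemma B1_le_Itil (hρA : ρA (-1) = 1) :
    (B1 N ρk).comap (Z1 N ρk).subtype ≤ Itil (ρK := ρK) (N := N) hk := by
  rintro ⟨ub, hub⟩ ⟨wb, hwb⟩
  obtain ⟨w, rfl⟩ := rHom_surjective (A := A) wb
  refine ⟨⟨del N ρA w, del_mem_Z1 hρA w⟩, ⟨cHom w, fun γ => push_del cHom hK w γ⟩, ?_⟩
  apply Subtype.ext
  funext γ
  show rHom (del N ρA w γ) = ub γ
  rw [push_del rHom hk w γ, hwb]
  rfl

include hK in
lemma opZ_Itil {ι : Type*} [Fintype ι] (F : HFam N ι) :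
    Itil (ρK := ρK) (N := N) hk ≤ (Itil (ρK := ρK) (N := N) hk).comap (F.opZ ρk) := by
  rintro _ ⟨u, ⟨w, hw⟩, rfl⟩
  refine ⟨F.opZ ρA u, ⟨F.op0 ρK w, fun γ => ?_⟩, pushZ_opZ F rHom hk u⟩
  have h1 := congrFun (F.op_del ρK w) γ
  rw [← h1, F.coe_opZ, F.op_apply, F.op_apply, map_sum]
  refine Finset.sum_congr rfl fun i _ => ?_
  rw [hK, hw]

/-- the quotient receiving the reduction map -/
abbrev YY (ρK : M2 →* Module.End K (J → K)) (N : ℕ)
    (hk : ∀ (M : M2) (v : J → A), rHom (ρA M v) = ρk M (rHom v)) : Type _ :=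
  Z1 N ρk ⧸ Itil (ρK := ρK) (N := N) hk

/-- Hecke operators on the quotient -/
def opY {ι : Type*} [Fintype ι] (F : HFam N ι) :
    Module.End (IsLocalRing.ResidueField A) (YY ρK N hk) :=
  Submodule.mapQ _ _ (F.opZ ρk) (opZ_Itil hK hk F)

/-- the projection from the cohomology -/
def toY (hρA : ρA (-1) = 1) : H1 N ρk →ₗ[IsLocalRing.ResidueField A] YY ρK N hk :=
  Submodule.mapQ _ _ LinearMap.id (B1_le_Itil hK hk hρA)

lemma toY_mk (hρA : ρA (-1) = 1) (u : Z1 N ρk) :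
    toY (N := N) hK hk hρA (Submodule.Quotient.mk u) = Submodule.Quotient.mk u := rfl

lemma toY_surjective (hρA : ρA (-1) = 1) : Function.Surjective (toY (N := N) hK hk hρA) := by
  intro y
  obtain ⟨u, rfl⟩ := Submodule.Quotient.mk_surjective _ y
  exact ⟨Submodule.Quotient.mk u, rfl⟩

lemma toY_opH (hρA : ρA (-1) = 1) {ι : Type*} [Fintype ι] (F : HFam N ι) (x : H1 N ρk) :
    toY hK hk hρA (F.opH ρk x) = opY hK hk F (toY hK hk hρA x) := by
  obtain ⟨u, rfl⟩ := Submodule.Quotient.mk_surjective _ x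
  rfl

lemma opY_comm (hρA : ρA (-1) = 1) {ℓ ℓ' : ℕ} (hℓ : ℓ.Prime) (hℓ' : ℓ'.Prime) (hℓN : ¬ ℓ ∣ N)
    (hℓ'N : ¬ ℓ' ∣ N) :
    Commute (opY hK hk (TF N ℓ hℓ hℓN)) (opY hK hk (TF N ℓ' hℓ' hℓ'N)) := by
  apply LinearMap.ext
  intro y
  obtain ⟨x, rfl⟩ := toY_surjective hK hk hρA y
  rw [Module.End.mul_apply, Module.End.mul_apply, ← toY_opH, ← toY_opH, ← toY_opH, ← toY_opH]
  have := congrArg (fun F : Module.End _ _ => F x) (TF_comm ρk hℓ hℓ' hℓN hℓ'N).eq
  exact congrArg _ this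

/-- the kernel of the projection is killed by `T_ℓ` for odd `ℓ ≡ 1` -/
lemma opH_eq_zero_of_toY (hρA : ρA (-1) = 1) {c : ℕ} (hcong : Cong c ρK)
    (h2 : (2 : K) ∈ A.nonunits) {ℓ : ℕ} (hp : ℓ.Prime) (hℓN : ¬ ℓ ∣ N)
    (hℓ : (ℓ : ZMod c) = 1) (hodd : ℓ ≠ 2) {x : H1 N ρk} (hx : toY hK hk hρA x = 0) :
    (TF N ℓ hp hℓN).opH ρk x = 0 := by
  obtain ⟨ub, rfl⟩ := Submodule.Quotient.mk_surjective _ x
  rw [toY_mk, Submodule.Quotient.mk_eq_zero] at hx
  obtain ⟨u, ⟨w, hw⟩, rfl⟩ := hx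
  have hmem := op0_sub_mem hcong hp hℓN hℓ (cHom (A := A)).range w (fun γ => by
    rw [← del_apply, ← hw γ]; exact ⟨_, rfl⟩)
  obtain ⟨vA, hvA⟩ := hmem
  -- upstairs
  have key : ∀ γ, (TF N ℓ hp hℓN).op ρA u.1 γ = ((ℓ : A) + 1) • u.1 γ + del N ρA vA γ := by
    intro γ
    apply cHom_injective
    have e1 := congrFun ((TF N ℓ hp hℓN).op_del ρK w) γ
    have e2 : cHom ((TF N ℓ hp hℓN).op ρA u.1 γ) = (TF N ℓ hp hℓN).op ρK (del N ρK w) γ := by
      rw [HFam.op_apply, HFam.op_apply, map_sum]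
      refine Finset.sum_congr rfl fun i _ => ?_
      rw [hK, hw]
    have e4 : cHom (del N ρA vA γ) = del N ρK (cHom vA) γ := push_del cHom hK vA γ
    rw [e2, e1, map_add, cHom_smul, hw, e4, hvA]
    simp only [del_apply, map_sub, map_smul, smul_sub]
    have e3 : (((ℓ : A) + 1 : A) : K) = (ℓ : K) + 1 := by push_cast; rfl
    rw [e3]
    abel
  rw [HFam.opH_mk, Submodule.Quotient.mk_eq_zero, Submodule.mem_comap]
  refine ⟨rHom vA, ?_⟩
  funext γ
  have e5 : rHom (del N ρA vA γ) = del N ρk (rHom vA) γ := push_del rHom hk vA γ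
  rw [← e5]
  have h3 : (pushZ N rHom hk ((TF N ℓ hp hℓN).opZ ρA u) : Gamma0 N → _) γ =
      rHom (((ℓ : A) + 1) • u.1 γ + del N ρA vA γ) := by
    rw [coe_pushZ, HFam.coe_opZ, key]
  rw [pushZ_opZ] at h3
  show _ = ((TF N ℓ hp hℓN).opZ ρk (pushZ N rHom hk u)).1 γ
  rw [h3, map_add, rHom_smul]
  have h4 : IsLocalRing.residue A ((ℓ : A) + 1) = 0 := by
    have h5 : ((ℓ : K) + 1) ∈ A.nonunits := by
      obtain ⟨m, hm⟩ := hp.odd_of_ne_two hodd
      have e : (ℓ : K) + 1 = ((m + 1 : ℕ) : K) * 2 := by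
        have : ((ℓ : ℕ) : K) = ((2 * m + 1 : ℕ) : K) := by rw [← hm]
        rw [this]; push_cast; ring
      rw [e, A.mem_nonunits_iff, map_mul]
      rw [A.mem_nonunits_iff] at h2
      have h6 : A.valuation ((m + 1 : ℕ) : K) ≤ 1 := by
        rw [A.valuation_le_one_iff]
        exact natCast_mem A (m + 1)
      exact mul_lt_one_of_nonneg_of_lt_one_right h6 zero_le' h2
    have h7 : ((ℓ : K) + 1) ∈ A := mem_of_nonunits h5
    have h8 := (residue_eq_zero_iff' h7).mpr h5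
    exact h8
  rw [h4, zero_smul, zero_add]

/-! ### Dimensions -/

/-- evaluation of cocycles at finitely many elements -/
def evZ {F : Type*} [Field F] (ρ : M2 →* Module.End F (J → F)) (s : Finset (Gamma0 N)) :
    Z1 N ρ →ₗ[F] (s × J → F) where
  toFun u p := u.1 (p.1 : Gamma0 N) p.2
  map_add' _ _ := rfl
  map_smul' _ _ := rfl

lemma evZ_injective {F : Type*} [Field F] (ρ : M2 →* Module.End F (J → F))
    (s : Finset (Gamma0 N)) (hs : Subgroup.closure (s : Set (Gamma0 N)) = ⊤) :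
    Function.Injective (evZ ρ s) := by
  rw [injective_iff_map_eq_zero]
  rintro ⟨u, hu⟩ h
  apply Subtype.ext
  funext γ
  have hmem : γ ∈ Subgroup.closure (s : Set (Gamma0 N)) := by rw [hs]; trivial
  show u γ = 0
  induction hmem using Subgroup.closure_induction with
  | mem x hx =>
    funext j
    exact congrFun h (⟨x, hx⟩, j)
  | one => exact Z1.one hu
  | mul x y _ _ hx hy => rw [hu.1, hx, hy, map_zero, add_zero]
  | inv x _ hx => rw [Z1.inv hu, hx, map_zero, neg_zero]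

include hK in
/-- a cocycle which is integral on generators is integral -/
lemma exists_integral (s : Finset (Gamma0 N))
    (hs : Subgroup.closure (s : Set (Gamma0 N)) = ⊤) (u : Z1 N ρK)
    (h : ∀ γ ∈ s, ∀ j, u.1 γ j ∈ A) : ∃ v : Z1 N ρA, pushZ N cHom hK v = u := by
  have h1 : ∀ γ, ∃ v : J → A, cHom v = u.1 γ := by
    intro γ
    have hmem : γ ∈ Subgroup.closure (s : Set (Gamma0 N)) := by rw [hs]; trivial
    induction hmem using Subgroup.closure_induction with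
    | mem x hx => exact ⟨fun j => ⟨u.1 x j, h x hx j⟩, rfl⟩
    | one => exact ⟨0, by rw [map_zero]; exact (Z1.one u.2).symm⟩
    | mul x y _ _ hx hy =>
      obtain ⟨v, hv⟩ := hx
      obtain ⟨w, hw⟩ := hy
      exact ⟨v + ρA (gm x) w, by rw [map_add, hK, hv, hw]; exact (u.2.1 x y).symm⟩
    | inv x _ hx =>
      obtain ⟨v, hv⟩ := hx
      exact ⟨-ρA (gm x⁻¹) v, by rw [map_neg, hK, hv]; exact (Z1.inv u.2 x).symm⟩
  choose v hv using h1
  refine ⟨⟨v, fun γ δ => cHom_injective ?_, fun γ hγ => cHom_injective ?_⟩, ?_⟩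
  · rw [hv, map_add, hv, hK, hv]
    exact u.2.1 γ δ
  · rw [hv, map_zero]
    exact u.2.2 γ hγ
  · apply Subtype.ext
    funext γ
    exact hv γ

include hK in
/-- reduction of the cocycles -/
lemma redSub_range (s : Finset (Gamma0 N))
    (hs : Subgroup.closure (s : Set (Gamma0 N)) = ⊤)
    (hlift : ∀ ub : Z1 N ρk, ∃ u : Z1 N ρA, pushZ N rHom hk u = ub) :
    redSub A (LinearMap.range (evZ ρK s)) = LinearMap.range (evZ ρk s) := by
  apply le_antisymm
  · rintro _ ⟨v, ⟨u, hu⟩, rfl⟩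
    obtain ⟨w, rfl⟩ := exists_integral hK s hs u (fun γ hγ j => by
      have := congrFun hu (⟨γ, hγ⟩, j)
      show u.1 γ j ∈ A
      have e : u.1 γ j = (v (⟨γ, hγ⟩, j) : K) := this
      rw [e]; exact (v _).2)
    refine ⟨pushZ N rHom hk w, ?_⟩
    funext p
    show IsLocalRing.residue A (w.1 p.1 p.2) = IsLocalRing.residue A (v p)
    congr 1
    exact Subtype.ext (congrFun hu p)
  · rintro _ ⟨ub, rfl⟩
    obtain ⟨u, rfl⟩ := hlift ub
    exact ⟨fun p => u.1 p.1 p.2, ⟨pushZ N cHom hK u, rfl⟩, rfl⟩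

include hK in
/-- reduction of the coboundaries -/
lemma redSub_map (s : Finset (Gamma0 N))
    (hs : Subgroup.closure (s : Set (Gamma0 N)) = ⊤) :
    redSub A (((B1 N ρK).comap (Z1 N ρK).subtype).map (evZ ρK s)) =
      (Itil (ρK := ρK) (N := N) hk).map (evZ ρk s) := by
  apply le_antisymm
  · rintro _ ⟨v, ⟨u, ⟨w', hw'⟩, hu⟩, rfl⟩
    obtain ⟨w, rfl⟩ := exists_integral hK s hs u (fun γ hγ j => by
      have := congrFun hu (⟨γ, hγ⟩, j)
      have e : u.1 γ j = (v (⟨γ, hγ⟩, j) : K) := this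
      rw [e]; exact (v _).2)
    refine ⟨pushZ N rHom hk w, ⟨w, ⟨w', fun γ => ?_⟩, rfl⟩, ?_⟩
    · have := congrFun hw' γ
      exact this.symm
    funext p
    show IsLocalRing.residue A (w.1 p.1 p.2) = IsLocalRing.residue A (v p)
    congr 1
    exact Subtype.ext (congrFun hu p)
  · rintro _ ⟨_, ⟨u, ⟨w', hw'⟩, rfl⟩, rfl⟩
    refine ⟨fun p => u.1 p.1 p.2, ⟨pushZ N cHom hK u, ⟨w', ?_⟩, rfl⟩, rfl⟩
    funext γ
    exact (hw' γ).symm

include hK in
/-- equality of dimensions -/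
theorem finrank_YY [Finite J] [NeZero N]
    (hlift : ∀ ub : Z1 N ρk, ∃ u : Z1 N ρA, pushZ N rHom hk u = ub) :
    finrank K (H1 N ρK) = finrank (IsLocalRing.ResidueField A) (YY ρK N hk) := by
  obtain ⟨s, hs⟩ := (Group.fg_def.mp (inferInstance : Group.FG (Gamma0 N)) :
    (⊤ : Subgroup (Gamma0 N)).FG)
  have e1 : finrank K (Z1 N ρK) = finrank (IsLocalRing.ResidueField A) (Z1 N ρk) := by
    rw [← LinearMap.finrank_range_of_inj (evZ_injective ρK s hs),
      ← LinearMap.finrank_range_of_inj (evZ_injective ρk s hs), ← redSub_range hK hk s hs hlift,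
      finrank_redSub]
  have e2 : finrank K ((B1 N ρK).comap (Z1 N ρK).subtype) =
      finrank (IsLocalRing.ResidueField A) (Itil (ρK := ρK) (N := N) hk) := by
    have h1 := (Submodule.equivMapOfInjective _ (evZ_injective ρK s hs)
      ((B1 N ρK).comap (Z1 N ρK).subtype)).finrank_eq
    have h2 := (Submodule.equivMapOfInjective _ (evZ_injective ρk s hs)
      (Itil (ρK := ρK) (N := N) hk)).finrank_eq
    rw [h1, h2, ← redSub_map hK hk s hs, finrank_redSub]
  have e3 := Submodule.finrank_quotient_add_finrank ((B1 N ρK).comap (Z1 N ρK).subtype)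
  have e4 := Submodule.finrank_quotient_add_finrank (Itil (ρK := ρK) (N := N) hk)
  show finrank K (Z1 N ρK ⧸ _) = finrank _ (Z1 N ρk ⧸ _)
  omega

/-! ### The reduction map -/

/-- classes of integral cocycles -/
def cH : Z1 N ρA →+ H1 N ρK :=
  (Submodule.mkQ ((B1 N ρK).comap (Z1 N ρK).subtype)).toAddMonoidHom.comp (pushZ N cHom hK)

/-- reduction of integral cocycles -/
def rY : Z1 N ρA →+ YY ρK N hk :=
  (Submodule.mkQ (Itil (ρK := ρK) (N := N) hk)).toAddMonoidHom.comp (pushZ N rHom hk)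

lemma rY_eq_zero {u : Z1 N ρA} (h : cH hK u = 0) : rY (ρK := ρK) hk u = 0 := by
  have h1 : (Submodule.Quotient.mk (pushZ N cHom hK u) : H1 N ρK) = 0 := h
  rw [Submodule.Quotient.mk_eq_zero] at h1
  obtain ⟨w, hw⟩ := h1
  show (Submodule.Quotient.mk (pushZ N rHom hk u) : YY ρK N hk) = 0
  rw [Submodule.Quotient.mk_eq_zero]
  exact ⟨u, ⟨w, fun γ => (congrFun hw γ).symm⟩, rfl⟩

open Classical in
/-- the reduction map, with junk values -/
def piY (x : H1 N ρK) : YY ρK N hk :=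
  if h : ∃ u : Z1 N ρA, cH hK u = x then rY hk h.choose else 0

lemma piY_cH (u : Z1 N ρA) : piY hK hk (cH hK u) = rY hk u := by
  have h : ∃ v : Z1 N ρA, cH hK v = cH hK u := ⟨u, rfl⟩
  unfold piY
  rw [dif_pos h]
  have h1 : cH hK (h.choose - u) = 0 := by rw [map_sub, h.choose_spec, sub_self]
  have h2 := rY_eq_zero hK hk h1
  rwa [map_sub, sub_eq_zero] at h2

lemma cH_smul (c : A) (u : Z1 N ρA) : cH hK (c • u) = (c : K) • cH hK u := rfl

lemma rY_smul (c : A) (u : Z1 N ρA) :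
    rY (ρK := ρK) hk (c • u) = IsLocalRing.residue A c • rY (ρK := ρK) hk u := by
  show (Submodule.Quotient.mk (pushZ N rHom hk (c • u)) : YY ρK N hk) =
    IsLocalRing.residue A c • Submodule.Quotient.mk (pushZ N rHom hk u)
  rw [← Submodule.Quotient.mk_smul]
  rfl

lemma cH_opZ {ι : Type*} [Fintype ι] (F : HFam N ι) (u : Z1 N ρA) :
    cH hK (F.opZ ρA u) = F.opH ρK (cH hK u) := by
  show (Submodule.Quotient.mk (pushZ N cHom hK (F.opZ ρA u)) : H1 N ρK) = _
  rw [pushZ_opZ]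
  rfl

lemma rY_opZ {ι : Type*} [Fintype ι] (F : HFam N ι) (u : Z1 N ρA) :
    rY (ρK := ρK) hk (F.opZ ρA u) = opY hK hk F (rY (ρK := ρK) hk u) := by
  show (Submodule.Quotient.mk (pushZ N rHom hk (F.opZ ρA u)) : YY ρK N hk) = _
  rw [pushZ_opZ]
  rfl

/-- the reduction data -/
def redH {D : ℕ} (hND : N ∣ D) : Red A (TH ρK hND)
    (fun ℓ : Pr D => opY hK hk (TF N ℓ.1 ℓ.2.1 (fun h => ℓ.2.2 (h.trans hND)))) where
  L := (cH hK).range
  π := piY hK hk
  smul_mem := by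
    rintro c _ hc ⟨u, rfl⟩
    exact ⟨(⟨c, hc⟩ : A) • u, rfl⟩
  T_mem := by
    rintro i _ ⟨u, rfl⟩
    exact ⟨_, cH_opZ hK _ u⟩
  π_add := by
    rintro _ _ ⟨u, rfl⟩ ⟨v, rfl⟩
    rw [← map_add, piY_cH, piY_cH, piY_cH, map_add]
  π_smul := by
    rintro c _ ⟨u, rfl⟩
    rw [← cH_smul, piY_cH, piY_cH, rY_smul]
  π_T := by
    rintro i _ ⟨u, rfl⟩
    show piY hK hk ((TF N _ _ _).opH ρK (cH hK u)) = _
    rw [← cH_opZ, piY_cH, piY_cH, rY_opZ]

include hK hk in
/-- **COMPARISON**: the localised cohomology in characteristic zero and modulo the maximal ideal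
of a valuation ring with residue characteristic two. -/
theorem finrank_compare [IsAlgClosed K] [Finite J] [NeZero N] (hρA : ρA (-1) = 1) {c : ℕ}
    (hcong : Cong c ρK) (h2 : (2 : K) ∈ A.nonunits) (hS : NoS N) {D : ℕ} (hND : N ∣ D)
    (a : Pr D → IsLocalRing.ResidueField A) (ℓ₁ : Pr D) (hℓ₁ : ((ℓ₁ : ℕ) : ZMod c) = 1)
    (hodd : (ℓ₁ : ℕ) ≠ 2) (ha : a ℓ₁ ≠ 0) :
    finrank K (gpart (TH ρK hND) (LamA A a)) =
      finrank (IsLocalRing.ResidueField A) (gpart (TH ρk hND) {a}) := by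
  have hac : IsAlgClosed (IsLocalRing.ResidueField A) := H11Q.isAlgClosed_residueField A
  have h3 : ∃ t : A, 3 * t = 1 := by
    have h2A : (2 : A) ∈ IsLocalRing.maximalIdeal A := by
      rw [A.valuation_lt_one_iff]
      rw [A.mem_nonunits_iff] at h2
      exact h2
    have h3u : IsUnit (3 : A) := by
      by_contra h
      have h3m : (3 : A) ∈ IsLocalRing.maximalIdeal A := (IsLocalRing.mem_maximalIdeal _).mpr h
      have h1m : (1 : A) ∈ IsLocalRing.maximalIdeal A := by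
        have := (IsLocalRing.maximalIdeal A).sub_mem h3m h2A
        have e : (3 : A) - 2 = 1 := by ring
        rwa [e] at this
      exact (Ideal.ne_top_iff_one _).mp (IsLocalRing.maximalIdeal.isMaximal A).ne_top h1m
    obtain ⟨t, ht⟩ := h3u.exists_right_inv
    exact ⟨t, ht⟩
  have hlift : ∀ ub : Z1 N ρk, ∃ u : Z1 N ρA, pushZ N rHom hk u = ub := by
    intro ub
    obtain ⟨u, hu, hgu⟩ := exists_lift_Z1 hρA h3 hS rHom hk
      (fun c v hv => by rw [rHom_smul, hv, smul_zero]) rHom_surjective ub.2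
    exact ⟨⟨u, hu⟩, Subtype.ext (funext hgu)⟩
  have hcomm : ∀ i j : Pr D, Commute
      (opY hK hk (TF N i.1 i.2.1 (fun h => i.2.2 (h.trans hND))))
      (opY hK hk (TF N j.1 j.2.1 (fun h => j.2.2 (h.trans hND)))) :=
    fun i j => opY_comm hK hk hρA i.2.1 j.2.1 _ _
  have hsurj : ∀ y : YY ρK N hk, ∃ x ∈ (redH hK hk hND).L, (redH hK hk hND).π x = y := by
    intro y
    obtain ⟨ub, rfl⟩ := Submodule.Quotient.mk_surjective _ y
    obtain ⟨u, rfl⟩ := hlift ub
    exact ⟨cH hK u, ⟨u, rfl⟩, piY_cH hK hk u⟩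
  have e1 := (redH hK hk hND).finrank_eq (TH_comm ρK hND) hcomm hsurj
    (finrank_YY hK hk hlift) a
  rw [e1, ← gpart_singleton]
  refine (finrank_gpart_of_surjective (TH_comm ρk hND) hcomm (toY hK hk hρA)
    (fun i x => toY_opH hK hk hρA _ x) (toY_surjective hK hk hρA) {a} ℓ₁ ?_ ?_).symm
  · rintro χ rfl
    exact ha
  · intro x hx
    exact opH_eq_zero_of_toY hK hk hρA hcong h2 ℓ₁.2.1 _ hℓ₁ hodd hx

end compare

end Fermat.Agent.H24H
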