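import Mathlib
import Fermat.Agent.H24H.Exact

/-!
# Lower bound for the localised cohomology by vector valued cusp forms
-/

set_option autoImplicit false

noncomputable section

namespace Fermat.Agent.H24H

open CongruenceSubgroup Matrix Fermat.Agent.H24ES ModularGroup Module
open Fermat.Agent.TC (Pr)
open scoped MatrixGroups

variable {N f D : ℕ} [NeZero N] [NeZero f] {W : Type*} [AddCommGroup W] [Module ℂ W]
  [FiniteDimensional ℂ W] (r : GL (Fin 2) (ZMod f) →* Module.End ℂ W)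

lemma ESmap_TV (hr : r (-1) = 1) (hND : N ∣ D) (ℓ : Pr D)
    (p : vForms N (ofGL f r) 2 × vForms N (ofGL f r) 2) :
    ESmap N (ofGL f r) (ofGL_neg_one r hr)
      ((TV (ofGL f r) 2 hND ℓ).prodMap (TV (ofGL f r) 2 hND ℓ) p) =
    TH (ofGL f r) hND ℓ (ESmap N (ofGL f r) (ofGL_neg_one r hr) p) :=
  (ES_final (N := N) r hr).2.2 ℓ.1 ℓ.2.1 _ p

/-- the Hecke operators on vector valued forms commute -/
lemma TV_comm (hr : r (-1) = 1) (hND : N ∣ D) (ℓ ℓ' : Pr D) :
    Commute (TV (ofGL f r) 2 hND ℓ) (TV (ofGL f r) 2 hND ℓ') := by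
  apply LinearMap.ext
  intro F
  have hinj := (ES_final (N := N) r hr).1
  have e : ∀ (i j : Pr D), ESmap N (ofGL f r) (ofGL_neg_one r hr)
      (TV (ofGL f r) 2 hND i (TV (ofGL f r) 2 hND j F), 0) =
      TH (ofGL f r) hND i (TH (ofGL f r) hND j
        (ESmap N (ofGL f r) (ofGL_neg_one r hr) (F, 0))) := by
    intro i j
    have h1 := ESmap_TV r hr hND j (F, 0)
    have h2 := ESmap_TV r hr hND i (TV (ofGL f r) 2 hND j F, 0)
    rw [LinearMap.prodMap_apply] at h1 h2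
    simp only [map_zero] at h1 h2
    rw [h2, h1]
  have h3 := e ℓ ℓ'
  have h4 := e ℓ' ℓ
  have h5 : TH (ofGL f r) hND ℓ (TH (ofGL f r) hND ℓ'
      (ESmap N (ofGL f r) (ofGL_neg_one r hr) (F, 0))) =
      TH (ofGL f r) hND ℓ' (TH (ofGL f r) hND ℓ
      (ESmap N (ofGL f r) (ofGL_neg_one r hr) (F, 0))) :=
    congrArg (fun G : Module.End ℂ (H1 N (ofGL f r)) =>
      G (ESmap N (ofGL f r) (ofGL_neg_one r hr) (F, 0))) (TH_comm (ofGL f r) hND ℓ ℓ').eq
  rw [h5, ← h4] at h3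
  exact congrArg Prod.fst (hinj h3)

/-- **LOWER BOUND** (package ES, localised) -/
theorem two_mul_finrank_vForms_le (hr : r (-1) = 1) (hND : N ∣ D) (Λ : Set (Pr D → ℂ)) :
    2 * finrank ℂ (gpart (TV (ofGL f r) 2 hND) Λ) ≤
      finrank ℂ (gpart (TH (ofGL f r) hND) Λ) := by
  have := (ES_final (N := N) r hr).2.1
  rw [two_mul, ← finrank_gpart_prod (TV_comm r hr hND) (TV_comm r hr hND) Λ]
  exact finrank_gpart_le_of_injective (ESmap N (ofGL f r) (ofGL_neg_one r hr))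
    (fun i x => ESmap_TV r hr hND i x) (ES_final (N := N) r hr).1 Λ

end Fermat.Agent.H24H
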