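import Mathlib
import Fermat.Agent.TC.Rank2
import Fermat.Agent.H24H.Exact

/-!
# Eichler-Shimura for trivial coefficients
-/

set_option autoImplicit false

noncomputable section

namespace Fermat.Agent.H24H

open CongruenceSubgroup Matrix Fermat.Agent.H24ES ModularGroup Module
open Fermat.Agent.TC (Pr GG emb HM IsAut Rep IsReps)
open scoped MatrixGroups

/-- A vector in the part on which `T i₀` acts by a scalar which is not an eigenvalue vanishes. -/
lemma eq_zero_of_gpart_smul {K M I : Type*} [Field K] [AddCommGroup M] [Module K M]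
    {T : I → Module.End K M} (i₀ : I) {μ : K} {Λ : Set (I → K)} (hΛ : ∀ χ ∈ Λ, χ i₀ ≠ μ) {x : M}
    (hx : x ∈ gpart T Λ) (h0 : T i₀ x = μ • x) : x = 0 := by
  have h1 : gpart T Λ ≤ ⨆ ν ∈ ({μ}ᶜ : Set K), (T i₀).maxGenEigenspace ν := by
    refine gpart_le fun χ hχ => ?_
    exact (iInf_le _ i₀).trans (le_biSup (fun μ => (T i₀).maxGenEigenspace μ)
      (show χ i₀ ∈ ({μ}ᶜ : Set K) from hΛ χ hχ))
  have h2 : x ∈ ⨆ ν ∈ ({μ} : Set K), (T i₀).maxGenEigenspace ν := by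
    have h3 : (⨆ ν ∈ ({μ} : Set K), (T i₀).maxGenEigenspace ν) = (T i₀).maxGenEigenspace μ := by
      simp
    rw [h3, Module.End.mem_maxGenEigenspace]
    exact ⟨1, by simp [h0]⟩
  have hd := ((T i₀).independent_maxGenEigenspace).disjoint_biSup_biSup
    (s := ({μ} : Set K)) (t := {μ}ᶜ) disjoint_compl_right
  have := hd.eq_bot
  rw [← Submodule.mem_bot K, ← this]
  exact ⟨h2, h1 hx⟩

/-- rational matrix of an integral matrix -/
def embM (A : M2) : GG :=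
  if h : (A.map (Int.cast : ℤ → ℚ)).det ≠ 0 then
    Matrix.GeneralLinearGroup.mkOfDetNeZero (A.map (Int.cast : ℤ → ℚ)) h else 1

lemma det_mapQ (A : M2) : (A.map (Int.cast : ℤ → ℚ)).det = ((A.det : ℤ) : ℚ) :=
  (Int.cast_det A).symm

lemma coe_embM {A : M2} (hA : A.det ≠ 0) :
    (embM A : Matrix (Fin 2) (Fin 2) ℚ) = A.map (Int.cast : ℤ → ℚ) := by
  have h : (A.map (Int.cast : ℤ → ℚ)).det ≠ 0 := by
    rw [det_mapQ]; exact_mod_cast hA
  unfold embM
  rw [dif_pos h]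
  rfl

lemma embM_mul {A B : M2} (hA : A.det ≠ 0) (hB : B.det ≠ 0) :
    embM (A * B) = embM A * embM B := by
  apply Units.ext
  rw [Units.val_mul, coe_embM hA, coe_embM hB,
    coe_embM (by rw [Matrix.det_mul]; exact mul_ne_zero hA hB)]
  exact Matrix.map_mul (f := Int.castRingHom ℚ)

lemma embM_SL (g : SL(2, ℤ)) : embM (g : M2) = emb g := by
  apply Units.ext
  rw [coe_embM (by rw [g.2]; exact one_ne_zero)]
  rfl

lemma embM_gm {N : ℕ} (γ : Gamma0 N) : embM (gm γ) = emb (γ : SL(2, ℤ)) := embM_SL _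

lemma embM_diM (ℓ : ℕ) [NeZero ℓ] : embM (diM ℓ) = TC.del ℓ := by
  apply Units.ext
  rw [coe_embM (by rw [det_diM]; exact_mod_cast NeZero.ne ℓ), TC.del_val, diM]
  ext i j
  fin_cases i <;> fin_cases j <;> simp

section trans

variable {N : ℕ} {ι : Type*} [Fintype ι] {A : Type*} [AddCommGroup A]

/-- the Hecke operator on homomorphisms -/
def homF (F : HFam N ι) (φ : HM (Gamma0 N) A) : HM (Gamma0 N) A where
  toFun γ := ∑ i, φ (Additive.ofMul (F.τ γ.toMul i))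
  map_zero' := by
    refine Finset.sum_eq_zero fun i _ => ?_
    show φ (Additive.ofMul (F.τ 1 i)) = 0
    rw [F.τ_one]
    exact map_zero φ
  map_add' γ δ := by
    show ∑ i, φ (Additive.ofMul (F.τ (γ.toMul * δ.toMul) i)) = _
    have h1 : ∀ i, φ (Additive.ofMul (F.τ (γ.toMul * δ.toMul) i)) =
        φ (Additive.ofMul (F.τ γ.toMul i)) +
        φ (Additive.ofMul (F.τ δ.toMul (F.perm γ.toMul i))) := by
      intro i
      rw [F.τ_mul, ofMul_mul, map_add, F.perm_apply]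
    rw [Finset.sum_congr rfl fun i _ => h1 i, Finset.sum_add_distrib]
    congr 1
    exact Equiv.sum_comp (F.perm γ.toMul) (fun i => φ (Additive.ofMul (F.τ δ.toMul i)))

lemma rep_homF (F : HFam N ι) :
    Rep (fun _ : ι => (1 : ℤ)) (fun i => embM (F.α i)) (homF (A := A) F) := by
  intro φ u hu γ x
  have h1 : ∀ i, u (embM (F.α i) * (emb (γ : SL(2, ℤ)) * x)) =
      φ (Additive.ofMul (F.τ γ i)) + u (embM (F.α (F.perm γ i)) * x) := by
    intro i
    have h2 : embM (F.α i) * emb (γ : SL(2, ℤ)) =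
        emb (F.τ γ i : SL(2, ℤ)) * embM (F.α (F.σ γ i)) := by
      have h3 := congrArg embM (F.spec γ i)
      rw [embM_mul (F.det_ne i) (by rw [det_gm]; exact one_ne_zero),
        embM_mul (by rw [det_gm]; exact one_ne_zero) (F.det_ne _), embM_gm, embM_gm] at h3
      exact h3
    rw [← mul_assoc, h2, mul_assoc, hu, F.perm_apply]
  show ∑ i, (1 : ℤ) • u (embM (F.α i) * (emb (γ : SL(2, ℤ)) * x)) =
    (∑ i, φ (Additive.ofMul (F.τ γ i))) + ∑ i, (1 : ℤ) • u (embM (F.α i) * x)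
  simp only [one_smul, h1, Finset.sum_add_distrib]
  congr 1
  exact Equiv.sum_comp (F.perm γ) (fun i => u (embM (F.α i) * x))

/-- comparison with the transfer definition -/
theorem homF_TF [NeZero N] {ℓ : ℕ} [NeZero ℓ] (hℓ : ℓ.Prime) (hℓN : ¬ ℓ ∣ N)
    (φ : HM (Gamma0 N) A) : homF (TF N ℓ hℓ hℓN) φ = H22.heckeLin ℤ N A ℓ φ := by
  obtain ⟨x, y, hxy⟩ : ∃ x y : ℤ, x * ℓ - y * N = 1 := by
    have hcop : IsCoprime (ℓ : ℤ) (N : ℤ) := by
      rw [Nat.isCoprime_iff_coprime]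
      exact (Nat.Prime.coprime_iff_not_dvd hℓ).mpr hℓN
    obtain ⟨a, b, hab⟩ := hcop
    exact ⟨a, -b, by linear_combination hab⟩
  have hz := TC.reps_ndvd (N := N) hℓ hℓN x y hxy
  rw [H22.GamH_top] at hz
  set z := TC.zrep N ℓ x y hxy with hzdef
  have h1 := TC.rep_heckeLin (R := ℤ) (A := A) hz
  have h2 := rep_homF (A := A) (TF N ℓ hℓ hℓN)
  -- the bijection
  have hex : ∀ j : Option (Fin ℓ), ∃ (i : Option (Fin ℓ)) (γ : Gamma0 N),
      diM ℓ * (z j : M2) = gm γ * tα ℓ i := by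
    intro j
    apply exists_tα hℓ hℓN
    · rw [Matrix.det_mul, det_diM, (z j).2, mul_one]
    · have e : (diM ℓ * (z j : M2)) 1 0 = z j 1 0 := by
        rw [diM, Matrix.mul_apply, Fin.sum_univ_two]; simp
      rw [e]
      exact H22.mem_Gamma0_iff_dvd.mp (hz.mem j)
  choose e g hg using hex
  have hℓ0 : (ℓ : ℤ) ≠ 0 := by exact_mod_cast hℓ.ne_zero
  have hinj : Function.Injective e := by
    intro j j' hjj
    apply hz.eq_of
    have h3 : diM ℓ * (z j : M2) = gm (g j * (g j')⁻¹) * (diM ℓ * (z j' : M2)) := by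
      rw [hg j', hg j, hjj, gm_mul, mul_assoc, ← mul_assoc (gm (g j')⁻¹), gm_inv, adj_mul_gm,
        one_mul]
    have h4 : diM ℓ * ((z j * (z j')⁻¹ : SL(2, ℤ)) : M2) = gm (g j * (g j')⁻¹) * diM ℓ := by
      rw [Matrix.SpecialLinearGroup.coe_mul, ← mul_assoc, h3, mul_assoc, mul_assoc,
        ← Matrix.SpecialLinearGroup.coe_mul, mul_inv_cancel, Matrix.SpecialLinearGroup.coe_one,
        mul_one]
    have h5 := congrFun (congrFun h4 1) 0
    simp only [diM, Matrix.mul_apply, Fin.sum_univ_two, Matrix.of_apply, Matrix.cons_val',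
      Matrix.cons_val_zero, Matrix.cons_val_one, Matrix.cons_val_fin_one, zero_mul, zero_add,
      one_mul, mul_zero, add_zero] at h5
    rw [H22.mem_Gamma0_iff_dvd, h5]
    push_cast
    exact mul_dvd_mul (dvd_gm _) dvd_rfl
  have hbij : Function.Bijective e := Finite.injective_iff_bijective.mp hinj
  refine (h1.ext h2 (Equiv.ofBijective e hbij) (fun _ => rfl) (fun j => ⟨g j, ?_⟩) φ).symm
  show TC.del ℓ * emb (z j) = emb (g j : SL(2, ℤ)) * embM (tα ℓ (e j))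
  have h6 := congrArg embM (hg j)
  rw [embM_mul (by rw [det_diM]; exact hℓ0) (by rw [(z j).2]; exact one_ne_zero),
    embM_mul (by rw [det_gm]; exact one_ne_zero) (by rw [det_tα]; exact hℓ0), embM_diM, embM_SL,
    embM_gm] at h6
  exact h6

end trans

section triv

variable {N : ℕ}

/-- the trivial coefficient system -/
abbrev triv (R : Type*) [CommRing R] : M2 →* Module.End R R := 1

/-- cocycles for trivial coefficients are homomorphisms -/
def trivHom (N : ℕ) : Z1 N (triv ℂ) →ₗ[ℂ] (Additive (Gamma0 N) →+ ℂ) where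
  toFun u :=
    { toFun := fun γ => u.1 γ.toMul
      map_zero' := Z1.one u.2
      map_add' := fun γ δ => u.2.1 γ.toMul δ.toMul }
  map_add' _ _ := rfl
  map_smul' _ _ := rfl

lemma trivHom_apply (u : Z1 N (triv ℂ)) (γ : Gamma0 N) :
    trivHom N u (Additive.ofMul γ) = u.1 γ := rfl

lemma trivHom_injective : Function.Injective (trivHom N) := by
  intro u v h
  apply Subtype.ext
  funext γ
  exact congrArg (fun φ : Additive (Gamma0 N) →+ ℂ => φ (Additive.ofMul γ)) h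

lemma trivHom_surjective : Function.Surjective (trivHom N) := by
  intro φ
  refine ⟨⟨fun γ => φ (Additive.ofMul γ), fun γ δ => map_add φ _ _, fun γ hγ => ?_⟩, rfl⟩
  have h1 : γ * γ = 1 := gm_injective (by
    rw [gm_mul, hγ, gm_one]; simp)
  have h2 : φ (Additive.ofMul γ) + φ (Additive.ofMul γ) = 0 := by
    rw [← map_add, ← ofMul_mul, h1]
    exact map_zero φ
  have h3 : (2 : ℂ) * φ (Additive.ofMul γ) = 0 := by rw [two_mul]; exact h2
  exact (mul_eq_zero.mp h3).resolve_left two_ne_zero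

lemma B1_triv : (B1 N (triv ℂ)).comap (Z1 N (triv ℂ)).subtype = ⊥ := by
  rw [eq_bot_iff]
  rintro u ⟨w, hw⟩
  rw [Submodule.mem_bot]
  apply Subtype.ext
  funext γ
  have := congrFun hw γ
  rw [del_apply] at this
  show u.1 γ = 0
  have h2 : (Z1 N (triv ℂ)).subtype u γ = u.1 γ := rfl
  rw [← h2, ← this]
  show w - w = 0
  exact sub_self w

/-- the cohomology with trivial coefficients -/
def trivEquiv (N : ℕ) : H1 N (triv ℂ) ≃ₗ[ℂ] (Additive (Gamma0 N) →+ ℂ) :=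
  (Submodule.quotEquivOfEqBot _ B1_triv).trans
    (LinearEquiv.ofBijective (trivHom N) ⟨trivHom_injective, trivHom_surjective⟩)

lemma trivEquiv_mk (u : Z1 N (triv ℂ)) :
    trivEquiv N (Submodule.Quotient.mk u) = trivHom N u := rfl

lemma heckeLin_ring (R : Type*) [CommRing R] (A : Type*) [AddCommGroup A] [Module R A]
    [NeZero N] (ℓ : ℕ) [NeZero ℓ] (φ : Additive (Gamma0 N) →+ A) :
    H22.heckeLin R N A ℓ φ = H22.heckeLin ℤ N A ℓ φ := rfl

lemma trivEquiv_opH [NeZero N] {ℓ : ℕ} (hℓ : ℓ.Prime) (hℓN : ¬ ℓ ∣ N)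
    (x : H1 N (triv ℂ)) : trivEquiv N ((TF N ℓ hℓ hℓN).opH (triv ℂ) x) =
      H22.heckeOpL ℂ N ℂ ⟨ℓ, hℓ⟩ (trivEquiv N x) := by
  have : NeZero ℓ := ⟨hℓ.ne_zero⟩
  obtain ⟨u, rfl⟩ := Submodule.Quotient.mk_surjective _ x
  rw [HFam.opH_mk, trivEquiv_mk, trivEquiv_mk]
  have h1 : H22.heckeOpL ℂ N ℂ ⟨ℓ, hℓ⟩ (trivHom N u) = H22.heckeLin ℤ N ℂ ℓ (trivHom N u) := rfl
  rw [h1, ← homF_TF hℓ hℓN]
  rfl

end triv

section main

variable {N D : ℕ} [NeZero N]

/-- the Hecke operators on homomorphisms -/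
def TL (N D : ℕ) [NeZero N] (ℓ : Pr D) : Module.End ℂ (Additive (Gamma0 N) →+ ℂ) :=
  H22.heckeOpL ℂ N ℂ ⟨ℓ.1, ℓ.2.1⟩

lemma TL_comm (ℓ ℓ' : Pr D) : Commute (TL N D ℓ) (TL N D ℓ') :=
  H22.heckeOpL_comm ℂ N ℂ _ _

/-- Eichler-Shimura map -/
def Phi (N : ℕ) [NeZero N] : CuspForm (Gamma0 N) 2 × CuspForm (Gamma0 N) 2 →ₗ[ℂ]
    (Additive (Gamma0 N) →+ ℂ) :=
  (H22.esMap N).coprod ((ModularCurve.Period.charInvolution N ℂ ℂ) ∘ₗ (H22.esMap N))

lemma Phi_apply (f g : CuspForm (Gamma0 N) 2) : Phi N (f, g) =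
    H22.esMap N f + ModularCurve.Period.charInvolution N ℂ ℂ (H22.esMap N g) := rfl

lemma esMap_TD (hND : N ∣ D) (ℓ : Pr D) (f : CuspForm (Gamma0 N) 2) :
    H22.esMap N (TC.TD hND ℓ f) = TL N D ℓ (H22.esMap N f) := by
  have := TC.esMap_evF hND (MvPolynomial.X ℓ) f
  rw [TC.evF, TC.evH, H22.evalComm_X, H22.evalComm_X] at this
  exact this

lemma Phi_TD (hND : N ∣ D) (ℓ : Pr D) (p : CuspForm (Gamma0 N) 2 × CuspForm (Gamma0 N) 2) :
    Phi N ((TC.TD hND ℓ).prodMap (TC.TD hND ℓ) p) = TL N D ℓ (Phi N p) := by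
  obtain ⟨f, g⟩ := p
  rw [LinearMap.prodMap_apply, Phi_apply, Phi_apply, map_add, esMap_TD, esMap_TD]
  congr 1
  exact (H05.heckeOpL_charInvolution ℂ N ℂ ⟨ℓ.1, ℓ.2.1⟩ _).symm

lemma le_range_Phi : ModularCurve.Period.parabolicHoms ℂ (Gamma0 N) ℂ ≤
    LinearMap.range (Phi N) := by
  intro ψ hψ
  obtain ⟨f, g, h⟩ := TC.exists_esMap_pair hψ
  exact ⟨(f, g), by rw [Phi_apply, h]⟩

lemma Phi_injective : Function.Injective (Phi N) := by
  have := H22.finiteDimensional_cuspForm N 2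
  have h1 := ES.eichlerShimura N
  have h2 : finrank ℂ (ModularCurve.Period.parabolicHoms ℂ (Gamma0 N) ℂ) =
      finrank ℂ (CuspForm (Gamma0 N) 2 × CuspForm (Gamma0 N) 2) := by
    rw [← h1.2, LinearMap.finrank_range_of_inj h1.1]
  have h3 := LinearMap.finrank_range_add_finrank_ker (Phi N)
  have h4 := Submodule.finrank_mono (le_range_Phi (N := N))
  have h5 : finrank ℂ (LinearMap.ker (Phi N)) = 0 := by omega
  rw [← LinearMap.ker_eq_bot]
  exact Submodule.finrank_eq_zero.mp h5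

lemma TL_sub_mem (ℓ : Pr D) (hℓ : (N : ℤ) ∣ ((ℓ : ℕ) : ℤ) - 1) (φ : Additive (Gamma0 N) →+ ℂ) :
    TL N D ℓ φ - ((ℓ : ℂ) + 1) • φ ∈ ModularCurve.Period.parabolicHoms ℂ (Gamma0 N) ℂ := by
  have : NeZero (ℓ : ℕ) := ⟨ℓ.2.1.ne_zero⟩
  intro γ hγ
  have hγ' : ((γ : SL(2, ℤ)) 0 0 + (γ : SL(2, ℤ)) 1 1) ^ 2 = 4 := by
    rw [← Matrix.trace_fin_two]; exact hγ
  have h1 := TC.heckeLin_parabolic (R := ℂ) (A := ℂ) (fun n hn x hx => by
    rw [nsmul_eq_mul] at hx
    exact (mul_eq_zero.mp hx).resolve_left (by exact_mod_cast hn)) ℓ.2.1 hℓ φ hγ'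
  show H22.heckeLin ℂ N ℂ (ℓ : ℕ) φ (Additive.ofMul γ) - ((ℓ : ℂ) + 1) • φ (Additive.ofMul γ) = 0
  rw [h1, nsmul_eq_mul, smul_eq_mul]
  push_cast
  ring

/-- **Eichler-Shimura for trivial coefficients**, localised. -/
theorem finrank_gpart_triv (hND : N ∣ D) (Λ : Set (Pr D → ℂ)) (ℓ₁ : Pr D)
    (hℓ₁ : (N : ℤ) ∣ ((ℓ₁ : ℕ) : ℤ) - 1) (hΛ : ∀ χ ∈ Λ, χ ℓ₁ ≠ (ℓ₁ : ℂ) + 1) :
    finrank ℂ (gpart (TH (triv ℂ) hND) Λ) = 2 * finrank ℂ (gpart (TC.TD hND) Λ) := by
  have := H22.finiteDimensional_cuspForm N 2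
  have : FiniteDimensional ℂ (Additive (Gamma0 N) →+ ℂ) :=
    LinearEquiv.finiteDimensional (trivEquiv N)
  rw [finrank_gpart_equiv (T := TH (triv ℂ) hND) (T' := TL N D) (trivEquiv N)
    (fun i x => trivEquiv_opH _ _ x) Λ]
  rw [two_mul, ← finrank_gpart_prod (TC.TD_comm hND) (TC.TD_comm hND) Λ]
  have hcomm : ∀ i j : Pr D, Commute
      ((TC.TD (N := N) hND i).prodMap (TC.TD hND i) :
        Module.End ℂ (CuspForm (Gamma0 N) 2 × CuspForm (Gamma0 N) 2))
      ((TC.TD hND j).prodMap (TC.TD hND j)) := by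
    intro i j
    show _ * _ = _ * _
    apply LinearMap.ext
    rintro ⟨f, g⟩
    have h := (TC.TD_comm (N := N) hND i j).eq
    have hf := congrArg (fun F : Module.End ℂ (CuspForm (Gamma0 N) 2) => F f) h
    have hg := congrArg (fun F : Module.End ℂ (CuspForm (Gamma0 N) 2) => F g) h
    exact Prod.ext hf hg
  have h1 := map_gpart hcomm (TL_comm (N := N) (D := D)) (Phi N) (fun i x => Phi_TD hND i x) Λ
  have h2 : gpart (TL N D) Λ ≤ LinearMap.range (Phi N) := by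
    -- pass to the quotient
    let P := LinearMap.range (Phi N)
    have hP : ∀ i, P ≤ P.comap (TL N D i) := by
      rintro i _ ⟨p, rfl⟩
      exact ⟨_, Phi_TD hND i p⟩
    let TQ : Pr D → Module.End ℂ ((Additive (Gamma0 N) →+ ℂ) ⧸ P) :=
      fun i => Submodule.mapQ P P (TL N D i) (hP i)
    intro x hx
    have h3 : P.mkQ x ∈ gpart TQ Λ := map_mem_gpart P.mkQ (fun i x => rfl) hx
    have h4 : TQ ℓ₁ (P.mkQ x) = ((ℓ₁ : ℂ) + 1) • P.mkQ x := by
      show P.mkQ (TL N D ℓ₁ x) = _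
      rw [← map_smul, ← sub_eq_zero, ← map_sub, ← LinearMap.mem_ker, Submodule.ker_mkQ]
      exact le_range_Phi (TL_sub_mem ℓ₁ hℓ₁ x)
    have h5 := eq_zero_of_gpart_smul ℓ₁ hΛ h3 h4
    rwa [← LinearMap.mem_ker, Submodule.ker_mkQ] at h5
  rw [inf_eq_right.mpr h2] at h1
  rw [← h1]
  exact (Submodule.equivMapOfInjective (Phi N) Phi_injective _).finrank_eq.symm

end main

end Fermat.Agent.H24H
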